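import Fermat.Agent.S14x.Cnt.H23_Defs
import Fermat.Agent.S14x.Asm.Defs

/-!
# S14 / CNT : adapter `StRayCount K` (all `K`) `→ Asm.StCNT` (helper23)

The `RayEquiv`-class of an ideal `𝔞₀` prime to `𝔪` is the class inverse to that of
`b := (g) / 𝔞₀`, `g ∈ 𝔞₀`, `g ≡ 1 mod 𝔪`.
-/

namespace Fermat.Agent.S14x.Cnt

open NumberField Module

section

variable {K : Type} [Field K] [NumberField K]

/-- an integral inverse of `𝔞₀` in the ray class group -/
lemma h23_exists_inverse {m a₀ : Ideal (𝓞 K)} (ha₀ : a₀ ≠ ⊥) (hcop : a₀ ⊔ m = ⊤) :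
    ∃ (g : 𝓞 K) (b : Ideal (𝓞 K)), g ≠ 0 ∧ g - 1 ∈ m ∧ b ≠ ⊥ ∧ b ⊔ m = ⊤ ∧
      a₀ * b = Ideal.span {g} := by
  -- an element `g ∈ a₀`, `g ≠ 0`, `g ≡ 1 mod m`
  obtain ⟨g, hga, hg0, hgm⟩ : ∃ g : 𝓞 K, g ∈ a₀ ∧ g ≠ 0 ∧ g - 1 ∈ m := by
    have h1 : (1 : 𝓞 K) ∈ a₀ ⊔ m := by rw [hcop]; exact Submodule.mem_top
    obtain ⟨g, hg, μ, hμ, hsum⟩ := Submodule.mem_sup.1 h1
    by_cases hg0 : g = 0
    · have hm : m = ⊤ := by
        rw [Ideal.eq_top_iff_one]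
        rw [hg0, zero_add] at hsum
        rwa [hsum] at hμ
      obtain ⟨g', hg', hg'0⟩ := Submodule.exists_mem_ne_zero_of_ne_bot ha₀
      exact ⟨g', hg', hg'0, by rw [hm]; exact Submodule.mem_top⟩
    · refine ⟨g, hg, hg0, ?_⟩
      have : g - 1 = -μ := by rw [← hsum]; ring
      rw [this]
      exact m.neg_mem hμ
  have hle : Ideal.span {g} ≤ a₀ := (Ideal.span_singleton_le_iff_mem a₀).2 hga
  obtain ⟨b, hb⟩ := Ideal.dvd_iff_le.2 hle
  have hspan0 : Ideal.span {g} ≠ (⊥ : Ideal (𝓞 K)) := by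
    rwa [Ne, Ideal.span_singleton_eq_bot]
  refine ⟨g, b, hg0, hgm, ?_, ?_, hb.symm⟩
  · rintro rfl
    rw [Ideal.mul_bot] at hb
    exact hspan0 hb
  · have hgb : Ideal.span {g} ≤ b := by rw [hb]; exact Ideal.mul_le_right (I := a₀) (J := b)
    rw [Ideal.eq_top_iff_one]
    have : (1 : 𝓞 K) = g + (-(g - 1)) := by ring
    rw [this]
    exact Submodule.add_mem_sup (hgb (Ideal.mem_span_singleton_self g)) (m.neg_mem hgm)

lemma h23_rayEquiv_of_inRay {m a₀ b I : Ideal (𝓞 K)} {g : 𝓞 K} (hg0 : g ≠ 0) (hgm : g - 1 ∈ m)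
    (hab : a₀ * b = Ideal.span {g}) (h : InRayClassInv m b I) :
    I ≠ ⊥ ∧ Asm.RayEquiv K m I a₀ := by
  obtain ⟨α, hα0, hαm, hI⟩ := h
  refine ⟨?_, g, α, hg0, hα0, ?_, ?_, ?_⟩
  · rintro rfl
    rw [Ideal.bot_mul] at hI
    exact hα0 (Ideal.span_singleton_eq_bot.1 hI.symm)
  · have : g - α = (g - 1) - (α - 1) := by ring
    rw [this]
    exact m.sub_mem hgm hαm
  · rw [Ideal.eq_top_iff_one]
    have : (1 : 𝓞 K) = g + (-(g - 1)) := by ring
    rw [this]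
    exact Submodule.add_mem_sup (Ideal.mem_span_singleton_self g) (m.neg_mem hgm)
  · rw [← hab, mul_assoc, mul_comm b I, hI, mul_comm]

lemma h23_inRay_of_rayEquiv {m a₀ b I : Ideal (𝓞 K)} {g : 𝓞 K} (hg0 : g ≠ 0) (hgm : g - 1 ∈ m)
    (hab : a₀ * b = Ideal.span {g}) (h : Asm.RayEquiv K m I a₀) :
    InRayClassInv m b I := by
  obtain ⟨a, b', ha0, hb'0, habm, hacop, hI⟩ := h
  -- `(a) (I b) = (b' g)`
  have h1 : Ideal.span {a} * (I * b) = Ideal.span {b' * g} := by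
    rw [← mul_assoc, hI, mul_assoc, hab, Ideal.span_singleton_mul_span_singleton]
  have h2 : b' * g ∈ Ideal.span {a} := by
    have : b' * g ∈ Ideal.span {a} * (I * b) := by
      rw [h1]; exact Ideal.mem_span_singleton_self _
    exact (Ideal.mul_le_left (I := Ideal.span {a}) (J := I * b)) this
  obtain ⟨α, hα⟩ := Ideal.mem_span_singleton'.1 h2
  -- `α * a = b' * g`
  have hα0 : α ≠ 0 := by
    rintro rfl
    rw [zero_mul] at hα
    exact mul_ne_zero hb'0 hg0 hα.symm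
  have hspana : Ideal.span {a} ≠ (⊥ : Ideal (𝓞 K)) := by
    rwa [Ne, Ideal.span_singleton_eq_bot]
  refine ⟨α, hα0, ?_, ?_⟩
  · -- `a (α - 1) ∈ m` and `(a) + m = ⊤`
    have h3 : a * (α - 1) ∈ m := by
      have : a * (α - 1) = b' * (g - 1) - (a - b') := by
        have : a * α = b' * g := by rw [mul_comm]; exact hα
        linear_combination this
      rw [this]
      exact m.sub_mem (m.mul_mem_left _ hgm) habm
    have h1' : (1 : 𝓞 K) ∈ Ideal.span {a} ⊔ m := by rw [hacop]; exact Submodule.mem_top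
    obtain ⟨r, hr, μ, hμ, hsum⟩ := Submodule.mem_sup.1 h1'
    obtain ⟨c, rfl⟩ := Ideal.mem_span_singleton'.1 hr
    have : α - 1 = c * (a * (α - 1)) + μ * (α - 1) := by
      have : (α - 1) = (c * a + μ) * (α - 1) := by rw [hsum, one_mul]
      nth_rewrite 1 [this]
      ring
    rw [this]
    exact m.add_mem (m.mul_mem_left _ h3) (m.mul_mem_right _ hμ)
  · have h4 : Ideal.span {a} * (I * b) = Ideal.span {a} * Ideal.span {α} := by
      rw [h1, Ideal.span_singleton_mul_span_singleton, ← hα, mul_comm]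
    exact mul_left_cancel₀ hspana h4

end

/-- [ADAPTER] the counting statement in the shape consumed by LFN. -/
theorem stCNT_of_rayCount (h : ∀ (K : Type) [Field K] [NumberField K], StRayCount K) :
    Asm.StCNT := by
  intro E _ _ m hm
  obtain ⟨κ, hκ, hcount⟩ := h E m hm
  refine ⟨κ, hκ, fun a₀ ha₀ hcop => ?_⟩
  obtain ⟨g, b, hg0, hgm, hb0, hbm, hab⟩ := h23_exists_inverse ha₀ hcop
  obtain ⟨C, hC⟩ := hcount b hb0 hbm
  refine ⟨C, fun x hx => ?_⟩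
  have hcongr : Nat.card {𝔞 : Ideal (𝓞 E) // 𝔞 ≠ ⊥ ∧ Asm.RayEquiv E m 𝔞 a₀ ∧
      (Ideal.absNorm 𝔞 : ℝ) ≤ x} =
      Nat.card {I : Ideal (𝓞 E) // InRayClassInv m b I ∧ (Ideal.absNorm I : ℝ) ≤ x} := by
    refine Nat.card_congr (Equiv.subtypeEquivRight fun I => ?_)
    constructor
    · rintro ⟨_, h2, h3⟩
      exact ⟨h23_inRay_of_rayEquiv hg0 hgm hab h2, h3⟩
    · rintro ⟨h1, h3⟩
      obtain ⟨h0, h2⟩ := h23_rayEquiv_of_inRay hg0 hgm hab h1
      exact ⟨h0, h2, h3⟩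
  rw [hcongr]
  exact hC x hx

end Fermat.Agent.S14x.Cnt
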