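import Fermat.Agent.S14x.Cnt.H23_RayCount
import Fermat.Agent.S14x.Cnt.H23_Adapter

/-!
# S14 / CNT : final export (helper23)

`stCNT : Asm.StCNT`, hypothesis-free: the number of integral ideals of norm `≤ x` in a ray class
modulo `𝔪` is `κ x + O (x ^ (1 - 1/n))`, with `κ > 0` independent of the class.

Chain: `stLattice` (H23_Lattice) + `H13.stFrontier` (H13_FrontierCov) → `H13.bridge` (H13_Bridge)
→ `H23R.stRayCount` (H23_RayCount) → `stCNT_of_rayCount` (H23_Adapter).
-/

namespace Fermat.Agent.S14x.Cnt

/-- [CNT] the deliverable of the package, in the shape consumed by LFN. -/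
theorem stCNT : Asm.StCNT :=
  stCNT_of_rayCount fun K _ _ => H23R.stRayCount K

end Fermat.Agent.S14x.Cnt
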