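import Mathlib

/-!
# S14 / CNT-3 (helper13): Lipschitz parametrisation of the frontier of `normLeOne K`

For a number field `K` of degree `n`, the frontier of Mathlib's region
`NumberField.mixedEmbedding.fundamentalCone.normLeOne K` is covered by finitely many Lipschitz
images of the unit cube of dimension `n - 1` (`frontier_normLeOne_lipschitz`).

Route: Mathlib gives `closure (normLeOne K) ⊆ normAtAllPlaces ⁻¹' compactSet K` and
`normAtAllPlaces ⁻¹' (expMapBasis '' interior (paramSet K)) ⊆ interior (normLeOne K)`.
With the radial coordinate (`radMap z = z w₀ • expMapBasis (z with z w₀ := 0)`) the frontier lies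
over the image of the boundary of the unit cube of `realSpace K`; the fibres of
`normAtAllPlaces` are described by signs at the real places and angles at the complex places.
All charts are smooth on the whole space, hence Lipschitz on the (compact convex) unit cube.
-/

set_option autoImplicit false

namespace Fermat.Agent.S14x.Cnt.H13

open NumberField NumberField.InfinitePlace NumberField.mixedEmbedding
  NumberField.mixedEmbedding.fundamentalCone NumberField.Units dirichletUnitTheorem

open scoped Classical Pointwise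

noncomputable section

variable (K : Type*) [Field K] [NumberField K]

theorem contDiff_expMapBasis :
    ContDiff ℝ ⊤ (expMapBasis : realSpace K → realSpace K) := by
  have h : (expMapBasis : realSpace K → realSpace K) =
      fun x => fun w => Real.exp ((↑w.mult)⁻¹ * ((completeBasis K).equivFunL.symm x) w) := by
    funext x w
    rw [expMapBasis_apply, expMap_apply]
    rfl
  rw [h]
  refine contDiff_pi.2 fun w => ?_
  refine Real.contDiff_exp.comp (contDiff_const.mul ?_)
  exact (contDiff_apply ℝ ℝ w).comp (completeBasis K).equivFunL.symm.contDiff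

/-- The radial version of `expMapBasis`: the first coordinate is the scaling factor itself. -/
def radMap (z : realSpace K) : realSpace K :=
  z w₀ • expMapBasis (Function.update z w₀ 0)

theorem contDiff_radMap : ContDiff ℝ ⊤ (radMap K) := by
  unfold radMap
  refine ContDiff.smul (contDiff_apply ℝ ℝ w₀) ((contDiff_expMapBasis K).comp ?_)
  refine contDiff_pi.2 fun w => ?_
  by_cases hw : w = w₀
  · subst hw
    simp only [Function.update_self]
    exact contDiff_const
  · simp only [Function.update_of_ne hw]
    exact contDiff_apply ℝ ℝ w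

theorem radMap_nonneg {z : realSpace K} (hz : 0 ≤ z w₀) (w : InfinitePlace K) :
    0 ≤ radMap K z w := by
  unfold radMap
  simpa using mul_nonneg hz (expMapBasis_nonneg _ w)

/-- The chart attached to a vector of signs `ε`. -/
def chart (ε : {w : InfinitePlace K // IsReal w} → ℝ)
    (p : realSpace K × ({w : InfinitePlace K // IsComplex w} → ℝ)) : mixedSpace K :=
  (fun w => ε w * radMap K p.1 w.1,
   fun w => ((radMap K p.1 w.1 : ℝ) : ℂ) *
      Complex.exp (((2 * Real.pi * p.2 w - Real.pi : ℝ) : ℂ) * Complex.I))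

theorem contDiff_chart (ε : {w : InfinitePlace K // IsReal w} → ℝ) :
    ContDiff ℝ ⊤ (chart K ε) := by
  unfold chart
  refine ContDiff.prodMk ?_ ?_
  · refine contDiff_pi.2 fun w => ?_
    refine contDiff_const.mul ?_
    exact (contDiff_apply ℝ ℝ w.1).comp ((contDiff_radMap K).comp contDiff_fst)
  · refine contDiff_pi.2 fun w => ?_
    refine ContDiff.mul ?_ ?_
    · exact Complex.ofRealCLM.contDiff.comp
        ((contDiff_apply ℝ ℝ w.1).comp ((contDiff_radMap K).comp contDiff_fst))
    · refine Complex.contDiff_exp.comp (ContDiff.mul ?_ contDiff_const)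
      refine Complex.ofRealCLM.contDiff.comp ?_
      refine ContDiff.sub (contDiff_const.mul ?_) contDiff_const
      exact (contDiff_apply ℝ ℝ w).comp contDiff_snd

/-- The sign attached to a boolean. -/
def sgn (b : Bool) : ℝ := if b then 1 else -1

theorem exists_chart_eq (x : mixedSpace K) (z : realSpace K)
    (hx : normAtAllPlaces x = radMap K z) :
    ∃ (ε : {w : InfinitePlace K // IsReal w} → Bool)
      (θ : {w : InfinitePlace K // IsComplex w} → ℝ),
      θ ∈ Set.Icc (0 : {w : InfinitePlace K // IsComplex w} → ℝ) 1 ∧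
      chart K (fun w => sgn (ε w)) (z, θ) = x := by
  refine ⟨fun w => decide (0 ≤ x.1 w), fun w => (Complex.arg (x.2 w) + Real.pi) / (2 * Real.pi),
    ?_, ?_⟩
  · rw [Set.mem_Icc, Pi.le_def, Pi.le_def]
    refine ⟨fun w => ?_, fun w => ?_⟩
    · have := Complex.neg_pi_lt_arg (x.2 w)
      simp only [Pi.zero_apply]
      have hpi := Real.pi_pos
      exact div_nonneg (by linarith) (by positivity)
    · have := Complex.arg_le_pi (x.2 w)
      simp only [Pi.one_apply]
      have hpi := Real.pi_pos
      rw [div_le_one (by positivity)]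
      linarith
  · have hpi := Real.pi_pos
    refine Prod.ext ?_ ?_
    · funext w
      have h1 : radMap K z w.1 = ‖x.1 w‖ := by
        rw [← hx, normAtAllPlaces_apply, normAtPlace_apply_of_isReal w.2]
      simp only [chart, h1, sgn]
      by_cases h0 : 0 ≤ x.1 w
      · simp [h0, abs_of_nonneg h0]
      · simp only [h0, decide_false, Bool.false_eq_true, if_false, Real.norm_eq_abs]
        rw [abs_of_neg (not_le.1 h0)]
        ring
    · funext w
      have h1 : radMap K z w.1 = ‖x.2 w‖ := by
        rw [← hx, normAtAllPlaces_apply, normAtPlace_apply_of_isComplex w.2]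
      simp only [chart, h1]
      have h2 : (2 * Real.pi * ((Complex.arg (x.2 w) + Real.pi) / (2 * Real.pi)) - Real.pi)
          = Complex.arg (x.2 w) := by
        field_simp
        ring
      rw [h2]
      exact Complex.norm_mul_exp_arg_mul_I (x.2 w)

/-- The boundary of the unit cube of `realSpace K`. -/
def cubeBdry : Set (realSpace K) :=
  {z | z ∈ Set.Icc (0 : realSpace K) 1 ∧ ∃ w, z w = 0 ∨ z w = 1}

theorem compactSet_diff_subset :
    compactSet K \ expMapBasis '' interior (paramSet K) ⊆ radMap K '' cubeBdry K := by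
  rintro x ⟨hx, hx'⟩
  obtain ⟨c, hc, ⟨_, ⟨y, hy, rfl⟩, rfl⟩⟩ := hx
  have hy0 : y w₀ = 0 := by simpa using hy w₀ (Set.mem_univ _)
  have hyw : ∀ w, w ≠ w₀ → y w ∈ Set.Icc (0 : ℝ) 1 := fun w hw => by
    simpa [hw] using hy w (Set.mem_univ _)
  refine ⟨Function.update y w₀ c, ⟨?_, ?_⟩, ?_⟩
  · rw [Set.mem_Icc, Pi.le_def, Pi.le_def]
    refine ⟨fun w => ?_, fun w => ?_⟩
    · by_cases hw : w = w₀
      · subst hw; simpa using hc.1
      · simpa [Function.update_of_ne hw] using (hyw w hw).1
    · by_cases hw : w = w₀
      · subst hw; simpa using hc.2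
      · simpa [Function.update_of_ne hw] using (hyw w hw).2
  · by_contra hcon
    push Not at hcon
    apply hx'
    have hc0 : 0 < c := lt_of_le_of_ne hc.1 (by
      have := (hcon w₀).1
      simpa [eq_comm] using this)
    have hc1 : c < 1 := lt_of_le_of_ne hc.2 (by
      have := (hcon w₀).2
      simpa using this)
    refine ⟨Function.update y w₀ (Real.log c), ?_, ?_⟩
    · rw [interior_paramSet, Set.mem_univ_pi]
      intro w
      by_cases hw : w = w₀
      · subst hw
        simpa using Real.log_neg hc0 hc1
      · have h1 := hcon w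
        simp only [Function.update_of_ne hw] at h1
        simp only [if_neg hw, Function.update_of_ne hw]
        exact ⟨lt_of_le_of_ne (hyw w hw).1 (Ne.symm h1.1), lt_of_le_of_ne (hyw w hw).2 h1.2⟩
    · rw [expMapBasis_apply'']
      simp only [Function.update_self, Real.exp_log hc0]
      congr 2
      funext w
      by_cases hw : w = w₀
      · subst hw; simp [hy0]
      · simp [hw]
  · unfold radMap
    simp only [Function.update_self, Function.update_idem]
    congr 2
    funext w
    by_cases hw : w = w₀
    · subst hw; simp [hy0]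
    · simp [Function.update_of_ne hw]

theorem frontier_normLeOne_subset :
    frontier (normLeOne K) ⊆ normAtAllPlaces ⁻¹' (radMap K '' cubeBdry K) := by
  intro x hx
  rw [frontier] at hx
  have h1 : x ∈ normAtAllPlaces ⁻¹' (compactSet K) := closure_normLeOne_subset K hx.1
  have h2 : x ∉ normAtAllPlaces ⁻¹' (expMapBasis '' interior (paramSet K)) :=
    fun h => hx.2 (subset_interior_normLeOne K h)
  exact compactSet_diff_subset K ⟨h1, h2⟩

/-- Insertion of the value `s` at the coordinate `w₁`. -/
def ins (w₁ : InfinitePlace K) (s : ℝ) (u : {w : InfinitePlace K // w ≠ w₁} → ℝ) :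
    realSpace K :=
  fun w => if h : w = w₁ then s else u ⟨w, h⟩

theorem contDiff_ins (w₁ : InfinitePlace K) (s : ℝ) : ContDiff ℝ ⊤ (ins K w₁ s) := by
  refine contDiff_pi.2 fun w => ?_
  by_cases h : w = w₁
  · simp only [ins, dif_pos h]
    exact contDiff_const
  · simp only [ins, dif_neg h]
    exact contDiff_apply ℝ ℝ (⟨w, h⟩ : {w : InfinitePlace K // w ≠ w₁})

/-- The chart of the face `z w₁ = s` with signs `ε`. -/
def faceChart {m : ℕ} (w₁ : InfinitePlace K) (s : Bool)
    (ε : {w : InfinitePlace K // IsReal w} → Bool)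
    (e : Fin m ≃ {w : InfinitePlace K // w ≠ w₁} ⊕ {w : InfinitePlace K // IsComplex w})
    (x : Fin m → ℝ) : mixedSpace K :=
  chart K (fun w => sgn (ε w))
    (ins K w₁ (if s then 1 else 0) (fun a => x (e.symm (Sum.inl a))),
      fun b => x (e.symm (Sum.inr b)))

theorem contDiff_faceChart {m : ℕ} (w₁ : InfinitePlace K) (s : Bool)
    (ε : {w : InfinitePlace K // IsReal w} → Bool)
    (e : Fin m ≃ {w : InfinitePlace K // w ≠ w₁} ⊕ {w : InfinitePlace K // IsComplex w}) :
    ContDiff ℝ ⊤ (faceChart K w₁ s ε e) := by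
  unfold faceChart
  refine (contDiff_chart K _).comp (ContDiff.prodMk ?_ ?_)
  · refine (contDiff_ins K w₁ _).comp (contDiff_pi.2 fun a => ?_)
    exact contDiff_apply ℝ ℝ (e.symm (Sum.inl a))
  · refine contDiff_pi.2 fun b => ?_
    exact contDiff_apply ℝ ℝ (e.symm (Sum.inr b))

theorem exists_lipschitzOnWith_faceChart {m : ℕ} (w₁ : InfinitePlace K) (s : Bool)
    (ε : {w : InfinitePlace K // IsReal w} → Bool)
    (e : Fin m ≃ {w : InfinitePlace K // w ≠ w₁} ⊕ {w : InfinitePlace K // IsComplex w}) :
    ∃ C : NNReal, LipschitzOnWith C (faceChart K w₁ s ε e) (Set.Icc 0 1) := by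
  refine ContDiffOn.exists_lipschitzOnWith (n := ⊤) (contDiff_faceChart K w₁ s ε e).contDiffOn
    (by simp) (convex_Icc _ _) ?_
  exact isCompact_Icc

theorem card_face_index (w₁ : InfinitePlace K) :
    Fintype.card ({w : InfinitePlace K // w ≠ w₁} ⊕ {w : InfinitePlace K // IsComplex w}) =
      Module.finrank ℚ K - 1 := by
  have h1 : Fintype.card {w : InfinitePlace K // w ≠ w₁} = Fintype.card (InfinitePlace K) - 1 := by
    rw [Fintype.card_subtype_compl, Fintype.card_subtype_eq]
  have h2 := card_eq_nrRealPlaces_add_nrComplexPlaces K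
  have h3 := card_add_two_mul_card_eq_rank K
  have h4 : 0 < Fintype.card (InfinitePlace K) := Fintype.card_pos
  rw [Fintype.card_sum, h1]
  unfold nrRealPlaces nrComplexPlaces at *
  omega

/-- The equivalence used to index the coordinates of the face charts. -/
def faceEquiv (w₁ : InfinitePlace K) :
    Fin (Module.finrank ℚ K - 1) ≃
      {w : InfinitePlace K // w ≠ w₁} ⊕ {w : InfinitePlace K // IsComplex w} :=
  (Fintype.equivFinOfCardEq (card_face_index K w₁)).symm

theorem frontier_subset_iUnion_faceChart :
    frontier (normLeOne K) ⊆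
      ⋃ (i : InfinitePlace K × Bool × ({w : InfinitePlace K // IsReal w} → Bool)),
        faceChart K i.1 i.2.1 i.2.2 (faceEquiv K i.1) '' Set.Icc 0 1 := by
  intro x hx
  obtain ⟨z, ⟨hz, w₁, hw₁⟩, hzx⟩ := frontier_normLeOne_subset K hx
  rw [Set.mem_Icc, Pi.le_def, Pi.le_def] at hz
  obtain ⟨ε, θ, hθ, hch⟩ := exists_chart_eq K x z hzx.symm
  rw [Set.mem_Icc, Pi.le_def, Pi.le_def] at hθ
  obtain ⟨s, hs⟩ : ∃ s : Bool, z w₁ = if s then 1 else 0 := by
    rcases hw₁ with h | h
    · exact ⟨false, by simpa using h⟩
    · exact ⟨true, by simpa using h⟩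
  refine Set.mem_iUnion.2 ⟨(w₁, s, ε), ?_⟩
  refine ⟨fun i => Sum.elim (fun a : {w : InfinitePlace K // w ≠ w₁} => z a.1) θ
    (faceEquiv K w₁ i), ?_, ?_⟩
  · rw [Set.mem_Icc, Pi.le_def, Pi.le_def]
    refine ⟨fun i => ?_, fun i => ?_⟩
    · rcases h : faceEquiv K w₁ i with a | b
      · simpa [h] using hz.1 a.1
      · simpa [h] using hθ.1 b
    · rcases h : faceEquiv K w₁ i with a | b
      · simpa [h] using hz.2 a.1
      · simpa [h] using hθ.2 b
  · rw [← hch]
    unfold faceChart
    congr 1
    refine Prod.ext ?_ ?_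
    · funext w
      by_cases h : w = w₁
      · subst h
        simp [ins, hs]
      · simp [ins, h]
    · funext b
      simp

/-- **Lipschitz parametrisation of the frontier of `normLeOne K`**: it is covered by finitely
many Lipschitz images of the unit cube of dimension `[K : ℚ] - 1`. -/
theorem frontier_normLeOne_lipschitz :
    ∃ (k : ℕ) (φ : Fin k → (Fin (Module.finrank ℚ K - 1) → ℝ) → mixedSpace K) (C : NNReal),
      (∀ i, LipschitzOnWith C (φ i) (Set.Icc 0 1)) ∧
      frontier (normLeOne K) ⊆ ⋃ i, φ i '' Set.Icc 0 1 := by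
  set ι := InfinitePlace K × Bool × ({w : InfinitePlace K // IsReal w} → Bool) with hι
  have hC : ∀ i : ι, ∃ C : NNReal,
      LipschitzOnWith C (faceChart K i.1 i.2.1 i.2.2 (faceEquiv K i.1)) (Set.Icc 0 1) :=
    fun i => exists_lipschitzOnWith_faceChart K i.1 i.2.1 i.2.2 (faceEquiv K i.1)
  choose C hC using hC
  let e : ι ≃ Fin (Fintype.card ι) := Fintype.equivFin ι
  refine ⟨Fintype.card ι,
    fun j => faceChart K (e.symm j).1 (e.symm j).2.1 (e.symm j).2.2 (faceEquiv K (e.symm j).1),
    Finset.univ.sup C, fun j => ?_, ?_⟩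
  · exact (hC (e.symm j)).weaken (Finset.le_sup (f := C) (Finset.mem_univ _))
  · intro x hx
    obtain ⟨i, hi⟩ := Set.mem_iUnion.1 (frontier_subset_iUnion_faceChart K hx)
    refine Set.mem_iUnion.2 ⟨e i, ?_⟩
    have key : ∀ j : ι, j = i →
        x ∈ faceChart K j.1 j.2.1 j.2.2 (faceEquiv K j.1) '' Set.Icc 0 1 := by
      rintro j rfl
      exact hi
    exact key _ (e.symm_apply_apply i)

end

end Fermat.Agent.S14x.Cnt.H13
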