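import Mathlib

/-!
# S14 / CNT : interfaces (helper23)

Counting lattice points of a translated lattice in a dilated region with an error term,
and counting integral ideals in a ray class with an error term.
Everything is stated for abstract number fields `K` (types).
-/

namespace Fermat.Agent.S14x.Cnt

open MeasureTheory Module NumberField NumberField.mixedEmbedding
  NumberField.mixedEmbedding.fundamentalCone
open scoped Pointwise

/-- Covering bound of exponent `d`: for every `N ≥ 1` the set `T` is covered by at most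
`C * N ^ d` closed balls of radius `1 / N`. -/
def CovBound {E : Type*} [PseudoMetricSpace E] (T : Set E) (d : ℕ) : Prop :=
  ∃ C : ℕ, ∀ N : ℕ, 0 < N →
    ∃ F : Finset E, F.card ≤ C * N ^ d ∧ T ⊆ ⋃ x ∈ F, Metric.closedBall x (1 / (N : ℝ))

/-- The Lipschitz counting principle for one region `S` of a space `E`, a lattice `L` and all
translates `v + L`: the number of points of `v + L` in `t • S` is
`μ S / covol L * t ^ n + O (t ^ (n - 1))`, `n = dim E`. -/
def LatticeCount {E : Type*} [NormedAddCommGroup E] [NormedSpace ℝ E] [MeasurableSpace E]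
    (μ : Measure E) (L : Submodule ℤ E) (S : Set E) : Prop :=
  ∀ v : E, ∃ C : ℝ, ∀ t : ℝ, 1 ≤ t →
    |(Nat.card {ℓ : L // v + (ℓ : E) ∈ t • S} : ℝ)
        - μ.real S / ZLattice.covolume L μ * t ^ finrank ℝ E| ≤ C * t ^ (finrank ℝ E - 1)

/-- [CNT-1] The abstract principle. -/
def StLattice : Prop :=
  ∀ (E : Type) [NormedAddCommGroup E] [NormedSpace ℝ E] [FiniteDimensional ℝ E]
    [MeasurableSpace E] [BorelSpace E] (μ : Measure E) [μ.IsAddHaarMeasure]
    (L : Submodule ℤ E) [DiscreteTopology L] [IsZLattice ℝ L] (S : Set E),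
    Bornology.IsBounded S → MeasurableSet S → CovBound (frontier S) (finrank ℝ E - 1) →
    LatticeCount μ L S

open scoped Classical in
/-- [CNT-3] The frontier of the norm-one region of the fundamental cone has covering exponent
`n - 1` (metric of `mixedSpace K` = sup metric of the product). -/
def StFrontier (K : Type) [Field K] [NumberField K] : Prop :=
  CovBound (frontier (normLeOne K)) (finrank ℚ K - 1)

/-- `I` lies in the ray class modulo `m` inverse to the class of `b`: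
`I * b = (α)` with `α ≡ 1 mod m`. -/
def InRayClassInv {K : Type} [Field K] [NumberField K] (m b I : Ideal (𝓞 K)) : Prop :=
  ∃ α : 𝓞 K, α ≠ 0 ∧ α - 1 ∈ m ∧ I * b = Ideal.span {α}

/-- [CNT-4] Ideals of a ray class: `κ x + O (x ^ (1 - 1/n))`, the same `κ` for all classes. -/
def StRayCount (K : Type) [Field K] [NumberField K] : Prop :=
  ∀ m : Ideal (𝓞 K), m ≠ ⊥ → ∃ κ : ℝ, 0 < κ ∧ ∀ b : Ideal (𝓞 K), b ≠ ⊥ → b ⊔ m = ⊤ →
    ∃ C : ℝ, ∀ x : ℝ, 1 ≤ x →
      |(Nat.card {I : Ideal (𝓞 K) // InRayClassInv m b I ∧ (Ideal.absNorm I : ℝ) ≤ x} : ℝ)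
          - κ * x| ≤ C * x ^ (1 - 1 / (finrank ℚ K : ℝ))

/-- [CNT-5] The ray class group modulo `m` as a finite commutative group `H` with the class
map `cl` (zero exactly on the ideals not prime to `m`), and the counting statement in every
class with the same main term. -/
def StRayGroup (K : Type) [Field K] [NumberField K] : Prop :=
  ∀ m : Ideal (𝓞 K), m ≠ ⊥ →
    ∃ (H : Type) (_ : CommGroup H) (_ : Finite H) (cl : Ideal (𝓞 K) →*₀ WithZero H),
      (∀ I, cl I = 0 ↔ (I = ⊥ ∨ I ⊔ m ≠ ⊤)) ∧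
      (∀ I, cl I = 1 ↔ ∃ γ : 𝓞 K, γ ≠ 0 ∧ γ - 1 ∈ m ∧ I = Ideal.span {γ}) ∧
      (∀ h : H, ∃ I, cl I = (h : WithZero H)) ∧
      ∃ κ C : ℝ, 0 < κ ∧ ∀ (c : H) (x : ℝ), 1 ≤ x →
        |(Nat.card {I : Ideal (𝓞 K) // cl I = (c : WithZero H) ∧ (Ideal.absNorm I : ℝ) ≤ x} : ℝ)
            - κ * x| ≤ C * x ^ (1 - 1 / (finrank ℚ K : ℝ))

/-- [CNT-6] The same for the quotient of the ray class group by the classes of a
multiplicatively closed set `𝒩` of ideals (in the application: the relative norms of the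
ideals of an extension). This is the counting input of the second inequality. -/
def StRayQuot (K : Type) [Field K] [NumberField K] : Prop :=
  ∀ m : Ideal (𝓞 K), m ≠ ⊥ → ∀ 𝒩 : Submonoid (Ideal (𝓞 K)),
    ∃ (H : Type) (_ : CommGroup H) (_ : Finite H) (cl : Ideal (𝓞 K) →*₀ WithZero H),
      (∀ I, cl I = 0 ↔ (I = ⊥ ∨ I ⊔ m ≠ ⊤)) ∧
      (∀ I, cl I = 1 ↔ (I ≠ ⊥ ∧ I ⊔ m = ⊤ ∧ ∃ (γ δ : 𝓞 K) (A B : Ideal (𝓞 K)),
          γ ≠ 0 ∧ δ ≠ 0 ∧ γ - 1 ∈ m ∧ δ - 1 ∈ m ∧ A ∈ 𝒩 ∧ B ∈ 𝒩 ∧ A ⊔ m = ⊤ ∧ B ⊔ m = ⊤ ∧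
            A ≠ ⊥ ∧ B ≠ ⊥ ∧ Ideal.span {γ} * I * A = Ideal.span {δ} * B)) ∧
      (∀ h : H, ∃ I, cl I = (h : WithZero H)) ∧
      ∃ κ C : ℝ, 0 < κ ∧ ∀ (c : H) (x : ℝ), 1 ≤ x →
        |(Nat.card {I : Ideal (𝓞 K) // cl I = (c : WithZero H) ∧ (Ideal.absNorm I : ℝ) ≤ x} : ℝ)
            - κ * x| ≤ C * x ^ (1 - 1 / (finrank ℚ K : ℝ))

end Fermat.Agent.S14x.Cnt
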