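import Mathlib
import Fermat.Agent.S14x.Cnt.H23_Defs
import Fermat.Agent.S14x.Cnt.H13_Frontier

/-!
# S14 / CNT-3 (helper13): `StFrontier K`

The frontier of `normLeOne K` has covering exponent `[K : ℚ] - 1` (helper23's `StFrontier K`,
verbatim), from the Lipschitz parametrisation of `H13_Frontier` and four lemmas of the covering
calculus (`h13_covBound_mono`, `h13_covBound_iUnion`, `h13_covBound_image`,
`h13_covBound_cube`).
-/

set_option autoImplicit false

namespace Fermat.Agent.S14x.Cnt.H13

open NumberField NumberField.mixedEmbedding NumberField.mixedEmbedding.fundamentalCone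
open Fermat.Agent.S14x.Cnt

open scoped Classical

noncomputable section

theorem h13_covBound_mono {E : Type*} [PseudoMetricSpace E] {T T' : Set E} {d : ℕ}
    (h : CovBound T d) (hsub : T' ⊆ T) : CovBound T' d := by
  obtain ⟨C, hC⟩ := h
  refine ⟨C, fun N hN => ?_⟩
  obtain ⟨F, hF, hcov⟩ := hC N hN
  exact ⟨F, hF, hsub.trans hcov⟩

theorem h13_covBound_iUnion {E : Type*} [PseudoMetricSpace E] {ι : Type*} [Fintype ι]
    {T : ι → Set E} {d : ℕ} (h : ∀ i, CovBound (T i) d) : CovBound (⋃ i, T i) d := by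
  choose C hC using h
  refine ⟨∑ i, C i, fun N hN => ?_⟩
  have h2 : ∀ i, ∃ F : Finset E, F.card ≤ C i * N ^ d ∧
      T i ⊆ ⋃ x ∈ F, Metric.closedBall x (1 / (N : ℝ)) := fun i => hC i N hN
  choose F hF hcov using h2
  refine ⟨Finset.univ.biUnion F, ?_, ?_⟩
  · calc (Finset.univ.biUnion F).card ≤ ∑ i, (F i).card := Finset.card_biUnion_le
      _ ≤ ∑ i, C i * N ^ d := Finset.sum_le_sum fun i _ => hF i
      _ = (∑ i, C i) * N ^ d := by rw [Finset.sum_mul]
  · intro x hx
    obtain ⟨i, hi⟩ := Set.mem_iUnion.1 hx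
    have := hcov i hi
    simp only [Set.mem_iUnion, exists_prop] at this ⊢
    obtain ⟨y, hy, hxy⟩ := this
    exact ⟨y, Finset.mem_biUnion.2 ⟨i, Finset.mem_univ _, hy⟩, hxy⟩

theorem h13_covBound_image {E F : Type*} [PseudoMetricSpace E] [PseudoMetricSpace F]
    {f : E → F} {k : NNReal} {P : Set E} {d : ℕ} (hf : LipschitzOnWith k f P)
    (h : CovBound P d) : CovBound (f '' P) d := by
  obtain ⟨C, hC⟩ := h
  set M : ℕ := 2 * (⌈(k : ℝ)⌉₊ + 1) with hM
  have hMpos : 0 < M := by omega
  have hkM : 2 * (k : ℝ) ≤ M := by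
    have := Nat.le_ceil (k : ℝ)
    rw [hM]
    push_cast
    linarith
  refine ⟨C * M ^ d, fun N hN => ?_⟩
  have hN' : 0 < M * N := Nat.mul_pos hMpos hN
  obtain ⟨G, hG, hcov⟩ := hC (M * N) hN'
  -- choose a point of `P` in each ball meeting `P`
  let g : E → E := fun x =>
    if h : (Metric.closedBall x (1 / ((M * N : ℕ) : ℝ)) ∩ P).Nonempty then h.some else x
  refine ⟨G.image (fun x => f (g x)), ?_, ?_⟩
  · calc (G.image (fun x => f (g x))).card ≤ G.card := Finset.card_image_le
      _ ≤ C * (M * N) ^ d := hG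
      _ = C * M ^ d * N ^ d := by rw [mul_pow, mul_assoc]
  · rintro _ ⟨y, hy, rfl⟩
    have := hcov hy
    simp only [Set.mem_iUnion, exists_prop] at this ⊢
    obtain ⟨x, hx, hyx⟩ := this
    refine ⟨f (g x), Finset.mem_image.2 ⟨x, hx, rfl⟩, ?_⟩
    have hne : (Metric.closedBall x (1 / ((M * N : ℕ) : ℝ)) ∩ P).Nonempty := ⟨y, hyx, hy⟩
    have hg : g x ∈ Metric.closedBall x (1 / ((M * N : ℕ) : ℝ)) ∩ P := by
      simp only [g, dif_pos hne]
      exact hne.some_mem
    rw [Metric.mem_closedBall]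
    have h1 : dist (f y) (f (g x)) ≤ k * dist y (g x) := hf.dist_le_mul y hy (g x) hg.2
    have h2 : dist y (g x) ≤ 2 * (1 / ((M * N : ℕ) : ℝ)) := by
      have ha : dist y x ≤ 1 / ((M * N : ℕ) : ℝ) := Metric.mem_closedBall.1 hyx
      have hb : dist (g x) x ≤ 1 / ((M * N : ℕ) : ℝ) := Metric.mem_closedBall.1 hg.1
      calc dist y (g x) ≤ dist y x + dist x (g x) := dist_triangle _ _ _
        _ ≤ 1 / ((M * N : ℕ) : ℝ) + 1 / ((M * N : ℕ) : ℝ) := by
          rw [dist_comm x (g x)]; exact add_le_add ha hb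
        _ = 2 * (1 / ((M * N : ℕ) : ℝ)) := by ring
    have hNr : (0 : ℝ) < N := by exact_mod_cast hN
    have hMr : (0 : ℝ) < M := by exact_mod_cast hMpos
    calc dist (f y) (f (g x)) ≤ k * dist y (g x) := h1
      _ ≤ k * (2 * (1 / ((M * N : ℕ) : ℝ))) := mul_le_mul_of_nonneg_left h2 k.coe_nonneg
      _ = (2 * k) / (M * N) := by push_cast; ring
      _ ≤ M / (M * N) := by
        apply div_le_div_of_nonneg_right hkM (by positivity)
      _ = 1 / N := by field_simp

theorem h13_covBound_cube (m : ℕ) : CovBound (Set.Icc (0 : Fin m → ℝ) 1) m := by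
  refine ⟨1, fun N hN => ?_⟩
  have hNr : (0 : ℝ) < N := by exact_mod_cast hN
  refine ⟨(Finset.univ : Finset (Fin m → Fin N)).image
    (fun j => fun i => ((j i : ℕ) : ℝ) / N), ?_, ?_⟩
  · calc _ ≤ (Finset.univ : Finset (Fin m → Fin N)).card := Finset.card_image_le
      _ = 1 * N ^ m := by simp
  · intro x hx
    rw [Set.mem_Icc, Pi.le_def, Pi.le_def] at hx
    simp only [Set.mem_iUnion, exists_prop]
    -- the index of the grid point
    have hidx : ∀ i, ∃ j : Fin N, |x i - ((j : ℕ) : ℝ) / N| ≤ 1 / N := by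
      intro i
      have h0 : 0 ≤ x i := hx.1 i
      have h1 : x i ≤ 1 := hx.2 i
      have hfl : ⌊x i * N⌋₊ ≤ N := by
        apply Nat.floor_le_of_le
        calc x i * N ≤ 1 * N := mul_le_mul_of_nonneg_right h1 hNr.le
          _ = N := one_mul _
      by_cases hlt : ⌊x i * N⌋₊ < N
      · refine ⟨⟨⌊x i * N⌋₊, hlt⟩, ?_⟩
        have ha : (⌊x i * N⌋₊ : ℝ) ≤ x i * N := Nat.floor_le (by positivity)
        have hb : x i * N < ⌊x i * N⌋₊ + 1 := Nat.lt_floor_add_one _
        rw [abs_le]
        constructor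
        · have : ((⌊x i * N⌋₊ : ℕ) : ℝ) / N ≤ x i := by
            rw [div_le_iff₀ hNr]; exact ha
          have h3 : (0 : ℝ) ≤ 1 / N := by positivity
          simp only
          linarith
        · have : x i < ((⌊x i * N⌋₊ : ℕ) : ℝ) / N + 1 / N := by
            rw [← add_div, lt_div_iff₀ hNr]; exact hb
          simp only
          linarith
      · have hNeq : ⌊x i * N⌋₊ = N := le_antisymm hfl (not_lt.1 hlt)
        have hx1 : (N : ℝ) ≤ x i * N := by
          have := Nat.floor_le (a := x i * N) (by positivity)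
          rw [hNeq] at this
          exact this
        have hxi : x i = 1 := by
          apply le_antisymm h1
          by_contra hcon
          push Not at hcon
          have : x i * N < 1 * N := mul_lt_mul_of_pos_right hcon hNr
          linarith
        refine ⟨⟨N - 1, by omega⟩, ?_⟩
        simp only
        rw [hxi]
        have hN1 : ((N - 1 : ℕ) : ℝ) = N - 1 := by
          rw [Nat.cast_sub (by omega)]; simp
        rw [hN1]
        have : (1 : ℝ) - (N - 1) / N = 1 / N := by field_simp; ring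
        rw [this, abs_of_nonneg (by positivity)]
    choose j hj using hidx
    refine ⟨fun i => ((j i : ℕ) : ℝ) / N, Finset.mem_image.2 ⟨j, Finset.mem_univ _, rfl⟩, ?_⟩
    rw [Metric.mem_closedBall, dist_pi_le_iff (by positivity)]
    intro i
    rw [Real.dist_eq]
    exact hj i

/-- **[CNT-3]** (helper23's `StFrontier`): the frontier of `normLeOne K` is covered by
`C * N ^ (n - 1)` closed balls of radius `1 / N`. -/
theorem stFrontier (K : Type) [Field K] [NumberField K] : StFrontier K := by
  obtain ⟨k, φ, C, hφ, hcov⟩ := frontier_normLeOne_lipschitz K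
  unfold StFrontier
  refine h13_covBound_mono (h13_covBound_iUnion (T := fun i => φ i '' Set.Icc 0 1) fun i => ?_) hcov
  exact h13_covBound_image (hφ i) (h13_covBound_cube _)

end

end Fermat.Agent.S14x.Cnt.H13
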