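import Fermat.Agent.S14x.Cnt.H23_Defs

/-!
# S14 / CNT-1 : the Lipschitz counting principle (helper23)

`stLattice : StLattice`: for a lattice `L` of a finite dimensional real normed space `E`, a
bounded measurable set `S` whose frontier is covered by `C N ^ (n - 1)` balls of radius `1 / N`,
and any `v : E`, the number of points of `v + L` in `t • S` is
`μ S / covol L * t ^ n + O (t ^ (n - 1))`.
-/

set_option linter.unusedSectionVars false

namespace Fermat.Agent.S14x.Cnt

open MeasureTheory Module Bornology Metric Submodule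
open scoped Pointwise

section cells

variable {E : Type*} [NormedAddCommGroup E] [NormedSpace ℝ E]
variable {ι : Type*} (B : Basis ι ℝ E)

/-- The cell `v + x + D`, `D` the fundamental domain of the basis `B`. -/
def h23_cell (v x : E) : Set E := {y | y - v - x ∈ ZSpan.fundamentalDomain B}

lemma h23_mem_cell {v x y : E} : y ∈ h23_cell B v x ↔ y - v - x ∈ ZSpan.fundamentalDomain B :=
  Iff.rfl

lemma h23_zero_mem_fd : (0 : E) ∈ ZSpan.fundamentalDomain B := by
  rw [ZSpan.mem_fundamentalDomain]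
  intro i
  simp

lemma h23_self_mem_cell (v x : E) : v + x ∈ h23_cell B v x := by
  rw [h23_mem_cell]
  have : v + x - v - x = 0 := by abel
  rw [this]
  exact h23_zero_mem_fd B

lemma h23_convex_fd : Convex ℝ (ZSpan.fundamentalDomain B) := by
  intro x hx y hy a b ha hb hab
  rw [ZSpan.mem_fundamentalDomain] at hx hy ⊢
  intro i
  have hx' := hx i
  have hy' := hy i
  simp only [map_add, map_smul, Finsupp.coe_add, Finsupp.coe_smul, Pi.add_apply, Pi.smul_apply,
    smul_eq_mul]
  exact (convex_Ico (0 : ℝ) 1) hx' hy' ha hb hab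

lemma h23_convex_cell (v x : E) : Convex ℝ (h23_cell B v x) := by
  have h : h23_cell B v x = (fun y : E => y + (-v - x)) ⁻¹' ZSpan.fundamentalDomain B := by
    ext y
    simp only [h23_mem_cell, Set.mem_preimage]
    rw [show y - v - x = y + (-v - x) by abel]
  rw [h]
  exact (h23_convex_fd B).translate_preimage_left (-v - x)

variable [Fintype ι]

lemma h23_cell_cover (v y : E) : ∃ x ∈ span ℤ (Set.range B), y ∈ h23_cell B v x := by
  refine ⟨(ZSpan.floor B (y - v) : E), (ZSpan.floor B (y - v)).2, ?_⟩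
  rw [h23_mem_cell, ← ZSpan.fract_apply]
  exact ZSpan.fract_mem_fundamentalDomain B _

lemma h23_cell_unique {v x₁ x₂ y : E} (h₁ : x₁ ∈ span ℤ (Set.range B))
    (h₂ : x₂ ∈ span ℤ (Set.range B)) (hy₁ : y ∈ h23_cell B v x₁) (hy₂ : y ∈ h23_cell B v x₂) :
    x₁ = x₂ := by
  rw [h23_mem_cell] at hy₁ hy₂
  have e₁ := (ZSpan.fract_eq_self (b := B)).2 hy₁
  have e₂ := (ZSpan.fract_eq_self (b := B)).2 hy₂
  have : ZSpan.fract B (y - v - x₁) = ZSpan.fract B (y - v - x₂) := by
    rw [ZSpan.fract_eq_fract]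
    have : -(y - v - x₁) + (y - v - x₂) = x₁ - x₂ := by abel
    rw [this]
    exact sub_mem h₁ h₂
  rw [e₁, e₂] at this
  have h3 : x₁ - x₂ = (y - v - x₂) - (y - v - x₁) := by abel
  rw [this, sub_self] at h3
  exact sub_eq_zero.1 h3

lemma h23_cell_bound [HasSolidNorm ℝ] {v x y : E} (hy : y ∈ h23_cell B v x) :
    ‖y - (v + x)‖ ≤ ∑ i, ‖B i‖ := by
  rw [h23_mem_cell] at hy
  have e := (ZSpan.fract_eq_self (b := B)).2 hy
  have := ZSpan.norm_fract_le B (y - v - x)
  rw [e] at this
  rwa [show y - (v + x) = y - v - x by abel]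

variable [MeasurableSpace E] [BorelSpace E]

lemma h23_measurable_cell (v x : E) : MeasurableSet (h23_cell B v x) := by
  have h : h23_cell B v x = (fun y : E => y + (-v - x)) ⁻¹' ZSpan.fundamentalDomain B := by
    ext y
    simp only [h23_mem_cell, Set.mem_preimage]
    rw [show y - v - x = y + (-v - x) by abel]
  rw [h]
  exact (measurable_add_const _) (ZSpan.fundamentalDomain_measurableSet B)

lemma h23_measure_cell (μ : Measure E) [μ.IsAddHaarMeasure] (v x : E) :
    μ (h23_cell B v x) = μ (ZSpan.fundamentalDomain B) := by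
  have h : h23_cell B v x = (fun y : E => y + (-v - x)) ⁻¹' ZSpan.fundamentalDomain B := by
    ext y
    simp only [h23_mem_cell, Set.mem_preimage]
    rw [show y - v - x = y + (-v - x) by abel]
  rw [h, measure_preimage_add_right]

end cells

section count

variable {E : Type*} [NormedAddCommGroup E] [NormedSpace ℝ E] [FiniteDimensional ℝ E]
variable {ι : Type*} [Fintype ι] (B : Basis ι ℝ E)

/-- lattice points `x` with `v + x ∈ A` -/
def h23_pts (v : E) (A : Set E) : Set E := {x | x ∈ span ℤ (Set.range B) ∧ v + x ∈ A}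

/-- lattice points whose cell is inside `A` -/
def h23_in (v : E) (A : Set E) : Set E := {x | x ∈ span ℤ (Set.range B) ∧ h23_cell B v x ⊆ A}

/-- lattice points whose cell meets `A` -/
def h23_out (v : E) (A : Set E) : Set E :=
  {x | x ∈ span ℤ (Set.range B) ∧ (h23_cell B v x ∩ A).Nonempty}

variable {B} {v : E} {A : Set E}

lemma h23_in_subset_pts : h23_in B v A ⊆ h23_pts B v A :=
  fun x hx => ⟨hx.1, hx.2 (h23_self_mem_cell B v x)⟩

lemma h23_pts_subset_out : h23_pts B v A ⊆ h23_out B v A :=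
  fun x hx => ⟨hx.1, ⟨v + x, h23_self_mem_cell B v x, hx.2⟩⟩

lemma h23_out_mono {A' : Set E} (h : A ⊆ A') : h23_out B v A ⊆ h23_out B v A' :=
  fun _ hx => ⟨hx.1, hx.2.mono (Set.inter_subset_inter_right _ h)⟩

lemma h23_out_finite (hA : IsBounded A) : (h23_out B v A).Finite := by
  obtain ⟨C, hC⟩ := hA.exists_norm_le
  have hb : IsBounded (closedBall (0 : E) (C + ‖v‖ + ∑ i, ‖B i‖)) := isBounded_closedBall
  refine (ZSpan.setFinite_inter B hb).subset ?_
  rintro x ⟨hx, y, hy, hyA⟩
  refine ⟨?_, hx⟩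
  rw [mem_closedBall_zero_iff]
  have h1 := h23_cell_bound B hy
  have h2 := hC y hyA
  have h3 : x = y - v - (y - (v + x)) := by abel
  calc ‖x‖ = ‖y - v - (y - (v + x))‖ := by rw [← h3]
    _ ≤ ‖y - v‖ + ‖y - (v + x)‖ := norm_sub_le _ _
    _ ≤ (‖y‖ + ‖v‖) + ‖y - (v + x)‖ := by gcongr; exact norm_sub_le _ _
    _ ≤ C + ‖v‖ + ∑ i, ‖B i‖ := by gcongr

/-- the number of lattice points in a ball of radius `ρ` is bounded independently of the
centre -/
lemma h23_ball_card (c : E) (ρ : ℝ) :
    (closedBall c ρ ∩ (span ℤ (Set.range B) : Set E)).ncard ≤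
      (closedBall (0 : E) (2 * ρ) ∩ (span ℤ (Set.range B) : Set E)).ncard := by
  rcases Set.eq_empty_or_nonempty (closedBall c ρ ∩ (span ℤ (Set.range B) : Set E)) with h | h
  · rw [h]; simp
  obtain ⟨x₀, hx₀, hx₀'⟩ := h
  refine Set.ncard_le_ncard_of_injOn (fun x => x - x₀) ?_ ?_
    (ZSpan.setFinite_inter B isBounded_closedBall)
  · rintro x ⟨hx, hx'⟩
    refine ⟨?_, sub_mem hx' hx₀'⟩
    rw [mem_closedBall_zero_iff]
    rw [mem_closedBall, dist_eq_norm] at hx hx₀
    calc ‖x - x₀‖ = ‖(x - c) - (x₀ - c)‖ := by congr 1; abel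
      _ ≤ ‖x - c‖ + ‖x₀ - c‖ := norm_sub_le _ _
      _ ≤ 2 * ρ := by linarith
  · intro x _ y _ hxy
    simpa using hxy

variable [MeasurableSpace E] [BorelSpace E] (μ : Measure E) [μ.IsAddHaarMeasure]

lemma h23_in_measure (hA : IsBounded A) :
    ((h23_in B v A).ncard : ENNReal) * μ (ZSpan.fundamentalDomain B) ≤ μ A := by
  have hfin : (h23_in B v A).Finite :=
    (h23_out_finite (B := B) (v := v) hA).subset (h23_in_subset_pts.trans h23_pts_subset_out)
  have hsub : (⋃ x ∈ hfin.toFinset, h23_cell B v x) ⊆ A := by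
    intro y hy
    simp only [Set.mem_iUnion, Set.Finite.mem_toFinset, exists_prop] at hy
    obtain ⟨x, hx, hyx⟩ := hy
    exact hx.2 hyx
  have hdisj : Set.PairwiseDisjoint (↑hfin.toFinset) (fun x => h23_cell B v x) := by
    intro x hx x' hx' hne
    simp only [Finset.mem_coe, Set.Finite.mem_toFinset] at hx hx'
    rw [Function.onFun, Set.disjoint_left]
    intro y hy hy'
    exact hne (h23_cell_unique B hx.1 hx'.1 hy hy')
  calc ((h23_in B v A).ncard : ENNReal) * μ (ZSpan.fundamentalDomain B)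
      = ∑ x ∈ hfin.toFinset, μ (h23_cell B v x) := by
        rw [Finset.sum_congr rfl (fun x _ => h23_measure_cell B μ v x), Finset.sum_const,
          nsmul_eq_mul, Set.ncard_eq_toFinset_card _ hfin]
    _ = μ (⋃ x ∈ hfin.toFinset, h23_cell B v x) :=
        (measure_biUnion_finset hdisj (fun x _ => h23_measurable_cell B v x)).symm
    _ ≤ μ A := measure_mono hsub

lemma h23_out_measure (hA : IsBounded A) :
    μ A ≤ ((h23_out B v A).ncard : ENNReal) * μ (ZSpan.fundamentalDomain B) := by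
  have hfin : (h23_out B v A).Finite := h23_out_finite hA
  have hsub : A ⊆ ⋃ x ∈ hfin.toFinset, h23_cell B v x := by
    intro y hy
    obtain ⟨x, hx, hyx⟩ := h23_cell_cover B v y
    simp only [Set.mem_iUnion, Set.Finite.mem_toFinset, exists_prop]
    exact ⟨x, ⟨hx, ⟨y, hyx, hy⟩⟩, hyx⟩
  calc μ A ≤ μ (⋃ x ∈ hfin.toFinset, h23_cell B v x) := measure_mono hsub
    _ ≤ ∑ x ∈ hfin.toFinset, μ (h23_cell B v x) := measure_biUnion_finset_le _ _
    _ = ((h23_out B v A).ncard : ENNReal) * μ (ZSpan.fundamentalDomain B) := by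
        rw [Finset.sum_congr rfl (fun x _ => h23_measure_cell B μ v x), Finset.sum_const,
          nsmul_eq_mul, Set.ncard_eq_toFinset_card _ hfin]

/-- the basic two-sided estimate -/
lemma h23_abs_le (hA : IsBounded A) :
    |((h23_pts B v A).ncard : ℝ) - μ.real A / μ.real (ZSpan.fundamentalDomain B)| ≤
      ((h23_out B v A \ h23_in B v A).ncard : ℝ) := by
  have hfo : (h23_out B v A).Finite := h23_out_finite hA
  have hfp : (h23_pts B v A).Finite := hfo.subset h23_pts_subset_out
  have hfi : (h23_in B v A).Finite := hfp.subset h23_in_subset_pts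
  have hD0 : μ (ZSpan.fundamentalDomain B) ≠ 0 := ZSpan.measure_fundamentalDomain_ne_zero B
  have hDtop : μ (ZSpan.fundamentalDomain B) ≠ ⊤ :=
    (ZSpan.fundamentalDomain_isBounded B).measure_lt_top.ne
  have hAtop : μ A ≠ ⊤ := hA.measure_lt_top.ne
  have hm : 0 < μ.real (ZSpan.fundamentalDomain B) :=
    ENNReal.toReal_pos hD0 hDtop
  have h1 : ((h23_in B v A).ncard : ℝ) * μ.real (ZSpan.fundamentalDomain B) ≤ μ.real A := by
    have := ENNReal.toReal_mono hAtop (h23_in_measure (B := B) (v := v) μ hA)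
    simpa [Measure.real, ENNReal.toReal_mul] using this
  have h2 : μ.real A ≤ ((h23_out B v A).ncard : ℝ) * μ.real (ZSpan.fundamentalDomain B) := by
    have := ENNReal.toReal_mono (ENNReal.mul_ne_top (ENNReal.natCast_ne_top _) hDtop)
      (h23_out_measure (B := B) (v := v) μ hA)
    simpa [Measure.real, ENNReal.toReal_mul] using this
  have h1' : ((h23_in B v A).ncard : ℝ) ≤ μ.real A / μ.real (ZSpan.fundamentalDomain B) :=
    (le_div_iff₀ hm).2 h1
  have h2' : μ.real A / μ.real (ZSpan.fundamentalDomain B) ≤ ((h23_out B v A).ncard : ℝ) :=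
    (div_le_iff₀ hm).2 h2
  have h3 : ((h23_in B v A).ncard : ℝ) ≤ ((h23_pts B v A).ncard : ℝ) := by
    exact_mod_cast Set.ncard_le_ncard h23_in_subset_pts hfp
  have h4 : ((h23_pts B v A).ncard : ℝ) ≤ ((h23_out B v A).ncard : ℝ) := by
    exact_mod_cast Set.ncard_le_ncard h23_pts_subset_out hfo
  have h5 : ((h23_out B v A \ h23_in B v A).ncard : ℝ) =
      ((h23_out B v A).ncard : ℝ) - ((h23_in B v A).ncard : ℝ) := by
    have := Set.ncard_sdiff_add_ncard_of_subset
      (h23_in_subset_pts.trans h23_pts_subset_out : h23_in B v A ⊆ h23_out B v A) hfo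
    rw [eq_sub_iff_add_eq]
    exact_mod_cast this
  rw [h5, abs_le]
  constructor <;> linarith

omit [FiniteDimensional ℝ E] [Fintype ι] [MeasurableSpace E] [BorelSpace E] in
/-- a convex set that meets `A` and is not contained in `A` meets the frontier of `A` -/
lemma h23_meets_frontier {T : Set E} (hT : Convex ℝ T) (h1 : (T ∩ A).Nonempty)
    (h2 : ¬ T ⊆ A) : (T ∩ frontier A).Nonempty := by
  by_contra hne
  rw [Set.not_nonempty_iff_eq_empty] at hne
  have hpre : IsPreconnected T := hT.isPreconnected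
  have hcov : T ⊆ interior A ∪ (closure A)ᶜ := by
    intro y hy
    by_cases hyc : y ∈ closure A
    · left
      by_contra hyi
      have : y ∈ T ∩ frontier A := ⟨hy, hyc, hyi⟩
      rw [hne] at this
      exact this
    · right; exact hyc
  have hdis : T ∩ (interior A ∩ (closure A)ᶜ) = ∅ := by
    ext y
    simp only [Set.mem_inter_iff, Set.mem_compl_iff, Set.mem_empty_iff_false, iff_false, not_and,
      not_not]
    intro _ hyi
    exact subset_closure (interior_subset hyi)
  rcases (isPreconnected_iff_subset_of_disjoint.1 hpre) (interior A) (closure A)ᶜ isOpen_interior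
    isClosed_closure.isOpen_compl hcov hdis with h | h
  · exact h2 (h.trans interior_subset)
  · obtain ⟨y, hyT, hyA⟩ := h1
    exact h hyT (subset_closure hyA)

omit [FiniteDimensional ℝ E] [Fintype ι] in
lemma h23_diff_subset :
    h23_out B v A \ h23_in B v A ⊆ h23_out B v (frontier A) := by
  rintro x ⟨⟨hx, hne⟩, hnin⟩
  refine ⟨hx, h23_meets_frontier (h23_convex_cell B v x) hne ?_⟩
  intro h
  exact hnin ⟨hx, h⟩

/-- if `T` is covered by the closed balls of radius `1` around the points of `F` then at most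
`F.card * M` cells meet `T` -/
lemma h23_out_card_le (F : Finset E) {T : Set E} (hT : T ⊆ ⋃ c ∈ F, closedBall c 1) :
    (h23_out B v T).ncard ≤ F.card *
      (closedBall (0 : E) (2 * (1 + ∑ i, ‖B i‖)) ∩ (span ℤ (Set.range B) : Set E)).ncard := by
  have hsub : h23_out B v T ⊆
      ⋃ c ∈ F, (closedBall (c - v) (1 + ∑ i, ‖B i‖) ∩ (span ℤ (Set.range B) : Set E)) := by
    rintro x ⟨hx, y, hy, hyT⟩
    have := hT hyT
    simp only [Set.mem_iUnion, exists_prop] at this ⊢
    obtain ⟨c, hc, hyc⟩ := this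
    refine ⟨c, hc, ?_, hx⟩
    rw [mem_closedBall, dist_eq_norm] at hyc ⊢
    have h1 := h23_cell_bound B hy
    calc ‖x - (c - v)‖ = ‖(y - c) - (y - (v + x))‖ := by congr 1; abel
      _ ≤ ‖y - c‖ + ‖y - (v + x)‖ := norm_sub_le _ _
      _ ≤ 1 + ∑ i, ‖B i‖ := by gcongr
  have hfin : (⋃ c ∈ F, (closedBall (c - v) (1 + ∑ i, ‖B i‖) ∩
      (span ℤ (Set.range B) : Set E))).Finite := by
    refine Set.Finite.biUnion F.finite_toSet (fun c _ => ?_)
    exact ZSpan.setFinite_inter B isBounded_closedBall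
  calc (h23_out B v T).ncard
      ≤ (⋃ c ∈ F, (closedBall (c - v) (1 + ∑ i, ‖B i‖) ∩
          (span ℤ (Set.range B) : Set E))).ncard := Set.ncard_le_ncard hsub hfin
    _ ≤ ∑ c ∈ F, (closedBall (c - v) (1 + ∑ i, ‖B i‖) ∩
          (span ℤ (Set.range B) : Set E)).ncard := Finset.set_ncard_biUnion_le _ _
    _ ≤ ∑ _c ∈ F, (closedBall (0 : E) (2 * (1 + ∑ i, ‖B i‖)) ∩
          (span ℤ (Set.range B) : Set E)).ncard :=
        Finset.sum_le_sum (fun c _ => h23_ball_card _ _)
    _ = _ := by rw [Finset.sum_const, smul_eq_mul]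

end count

section main

variable {E : Type*} [NormedAddCommGroup E] [NormedSpace ℝ E] [FiniteDimensional ℝ E]
  [MeasurableSpace E] [BorelSpace E]

/-- [CNT-1] for one lattice and one region. -/
theorem latticeCount_of_covBound (μ : Measure E) [μ.IsAddHaarMeasure]
    (L : Submodule ℤ E) [DiscreteTopology L] [IsZLattice ℝ L] (S : Set E)
    (hS : IsBounded S) (hfr : CovBound (frontier S) (finrank ℝ E - 1)) :
    LatticeCount μ L S := by
  classical
  intro v
  set b := Module.Free.chooseBasis ℤ L with hb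
  set B := b.ofZLatticeBasis ℝ L with hB
  have hspan : span ℤ (Set.range B) = L := b.ofZLatticeBasis_span ℝ L
  have hcov : ZLattice.covolume L μ = μ.real (ZSpan.fundamentalDomain B) :=
    ZLattice.covolume_eq_measure_fundamentalDomain L μ (ZLattice.isAddFundamentalDomain b μ)
  obtain ⟨C₀, hC₀⟩ := hfr
  set n := finrank ℝ E with hn
  set M := (closedBall (0 : E) (2 * (1 + ∑ i, ‖B i‖)) ∩ (span ℤ (Set.range B) : Set E)).ncard
    with hM
  refine ⟨(C₀ : ℝ) * 2 ^ (n - 1) * M, fun t ht => ?_⟩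
  have ht0 : 0 < t := lt_of_lt_of_le one_pos ht
  set A := t • S with hA
  have hAb : IsBounded A := hS.smul₀ t
  -- the count
  have hcard : (Nat.card {ℓ : L // v + (ℓ : E) ∈ A} : ℝ) = ((h23_pts B v A).ncard : ℝ) := by
    congr 1
    rw [← Nat.card_coe_set_eq]
    refine Nat.card_congr ?_
    refine
      { toFun := fun ℓ => ⟨(ℓ.1 : E), by rw [hspan]; exact ℓ.1.2, ℓ.2⟩
        invFun := fun x => ⟨⟨x.1, by have := x.2.1; rwa [hspan] at this⟩, x.2.2⟩
        left_inv := fun ℓ => rfl
        right_inv := fun x => rfl }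
  -- the measure
  have hmeas : μ.real A = t ^ n * μ.real S := by
    rw [hA, Measure.real, Measure.addHaar_smul_of_nonneg μ ht0.le, ENNReal.toReal_mul,
      ENNReal.toReal_ofReal (pow_nonneg ht0.le _)]
    rfl
  -- the frontier
  set N := ⌈t⌉₊ with hN
  have hN1 : 0 < N := Nat.ceil_pos.2 ht0
  have hNt : t ≤ (N : ℝ) := Nat.le_ceil t
  have hN2 : (N : ℝ) ≤ 2 * t := by
    have := Nat.ceil_lt_add_one ht0.le
    linarith
  obtain ⟨F, hFc, hF⟩ := hC₀ N hN1
  have hfront : frontier A ⊆ ⋃ c ∈ F.image (fun x => t • x), closedBall c 1 := by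
    have hfr : frontier A = t • frontier S := by
      have := (Homeomorph.smulOfNeZero t ht0.ne').image_frontier S
      simpa [hA, Set.image_smul] using this.symm
    rw [hfr]
    rintro _ ⟨z, hz, rfl⟩
    have := hF hz
    simp only [Set.mem_iUnion, exists_prop, Finset.mem_image, exists_exists_and_eq_and] at this ⊢
    obtain ⟨x, hx, hzx⟩ := this
    refine ⟨x, hx, ?_⟩
    rw [mem_closedBall, dist_eq_norm] at hzx ⊢
    rw [← smul_sub, norm_smul, Real.norm_of_nonneg ht0.le]
    have hNpos : (0 : ℝ) < N := by exact_mod_cast hN1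
    calc t * ‖z - x‖ ≤ t * (1 / N) := by gcongr
      _ ≤ N * (1 / N) := by gcongr
      _ = 1 := by field_simp
  have hbd := h23_out_card_le (B := B) (v := v) (F.image (fun x => t • x)) hfront
  have hfinbd : (h23_out B v (frontier A)).Finite :=
    h23_out_finite (hAb.closure.subset frontier_subset_closure)
  have hkey := h23_abs_le (B := B) (v := v) μ hAb
  have hle1 : ((h23_out B v A \ h23_in B v A).ncard : ℝ) ≤
      ((h23_out B v (frontier A)).ncard : ℝ) := by
    exact_mod_cast Set.ncard_le_ncard h23_diff_subset hfinbd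
  have hle2 : ((h23_out B v (frontier A)).ncard : ℝ) ≤ (F.card : ℝ) * M := by
    have h1 : (h23_out B v (frontier A)).ncard ≤ F.card * M :=
      hbd.trans (Nat.mul_le_mul_right _ Finset.card_image_le)
    exact_mod_cast h1
  have hle3 : (F.card : ℝ) ≤ (C₀ : ℝ) * 2 ^ (n - 1) * t ^ (n - 1) := by
    have h1 : (F.card : ℝ) ≤ (C₀ : ℝ) * (N : ℝ) ^ (n - 1) := by exact_mod_cast hFc
    have h2 : (N : ℝ) ^ (n - 1) ≤ (2 * t) ^ (n - 1) :=
      pow_le_pow_left₀ (Nat.cast_nonneg _) hN2 _
    calc (F.card : ℝ) ≤ (C₀ : ℝ) * (N : ℝ) ^ (n - 1) := h1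
      _ ≤ (C₀ : ℝ) * (2 * t) ^ (n - 1) := by gcongr
      _ = (C₀ : ℝ) * 2 ^ (n - 1) * t ^ (n - 1) := by rw [mul_pow, mul_assoc]
  rw [hcard, hcov]
  have e : μ.real S / μ.real (ZSpan.fundamentalDomain B) * t ^ n =
      μ.real A / μ.real (ZSpan.fundamentalDomain B) := by
    rw [hmeas]; ring
  rw [e]
  calc |((h23_pts B v A).ncard : ℝ) - μ.real A / μ.real (ZSpan.fundamentalDomain B)|
      ≤ ((h23_out B v A \ h23_in B v A).ncard : ℝ) := hkey
    _ ≤ (F.card : ℝ) * M := hle1.trans hle2
    _ ≤ ((C₀ : ℝ) * 2 ^ (n - 1) * t ^ (n - 1)) * M := by gcongr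
    _ = (C₀ : ℝ) * 2 ^ (n - 1) * M * t ^ (n - 1) := by ring

/-- [CNT-1] the abstract principle. -/
theorem stLattice : StLattice := by
  intro E _ _ _ _ _ μ _ L _ _ S hS _ hfr
  exact latticeCount_of_covBound μ L S hS hfr

end main

end Fermat.Agent.S14x.Cnt
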