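import Mathlib
import Fermat.Agent.S14x.Cnt.H23_Defs

/-!
# S14 / CNT-4 (helper5), part 1: ideals of a ray class as points of the fundamental cone

Pure algebra (no analysis).  Let `b ⊔ m = ⊤`.  The ideals `I` with `I * b = (α)`, `α ≡ 1 mod m`,
of norm `≤ x` are counted, with multiplicity `torsionOrder K`, by the integers `β ∈ b` whose image
lies in Mathlib's fundamental cone, which are congruent to a unit modulo `m` and have norm
`≤ x * N b`.  These integers are then sorted according to their residue `ρ` modulo `m`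
(a residue of a unit `r`), and those of residue `ρ` are the points of the translated lattice
`r α₀ + b m` (`α₀ ∈ b`, `α₀ ≡ 1 mod m`) in the dilated region `t • normLeOne K`.

* `card_rayClass_eq`  : `#{I} = #{P principal, b ∣ P, generator ≡ 1}`              (`I ↦ I * b`)
* `card_cone_eq`      : `#{β in the cone} = #{P} * torsionOrder K`                 (Mathlib)
* `card_cone_eq_sum`  : `#{β in the cone} = ∑ ρ, #{β in the cone, β ≡ r_ρ mod m}`
* `card_latticePoints_eq` : lattice points of `r α₀ + b m` in `t • normLeOne K` ↔ `β ≡ r`.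
-/

set_option autoImplicit false

open MeasureTheory Module NumberField NumberField.mixedEmbedding
  NumberField.mixedEmbedding.fundamentalCone
open scoped Pointwise nonZeroDivisors

noncomputable section

namespace Fermat.Agent.S14x.Cnt.H5

variable {K : Type} [Field K] [NumberField K]

/-- The principal ideals `P = I * b` attached to the ideals `I` of the ray class inverse to `b`:
`b ∣ P`, `P` has a generator `≡ 1 mod m`, `N P ≤ X`. -/
def PrinPred (m b : Ideal (𝓞 K)) (X : ℝ) (P : Ideal (𝓞 K)) : Prop :=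
  b ∣ P ∧ (∃ γ : 𝓞 K, γ ≠ 0 ∧ γ - 1 ∈ m ∧ P = Ideal.span {γ}) ∧ (Ideal.absNorm P : ℝ) ≤ X

theorem PrinPred.ne_bot {m b : Ideal (𝓞 K)} {X : ℝ} {P : Ideal (𝓞 K)}
    (h : PrinPred m b X P) : P ≠ ⊥ := by
  obtain ⟨-, ⟨γ, hγ, -, rfl⟩, -⟩ := h
  simpa using hγ

theorem PrinPred.isPrincipal {m b : Ideal (𝓞 K)} {X : ℝ} {P : Ideal (𝓞 K)}
    (h : PrinPred m b X P) : Submodule.IsPrincipal P := by
  obtain ⟨-, ⟨γ, -, -, rfl⟩, -⟩ := h
  exact ⟨⟨γ, rfl⟩⟩

/-- Step A: `I ↦ I * b`. -/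
theorem card_rayClass_eq (m b : Ideal (𝓞 K)) (hb : b ≠ ⊥) (x : ℝ) :
    Nat.card {I : Ideal (𝓞 K) // InRayClassInv m b I ∧ (Ideal.absNorm I : ℝ) ≤ x} =
      Nat.card {P : Ideal (𝓞 K) // PrinPred m b (x * Ideal.absNorm b) P} := by
  have hNb : (0 : ℝ) < Ideal.absNorm b := by
    have : Ideal.absNorm b ≠ 0 := fun h => hb (Ideal.absNorm_eq_zero_iff.mp h)
    exact_mod_cast Nat.pos_of_ne_zero this
  refine Nat.card_congr (Equiv.ofBijective
    (fun I => ⟨I.1 * b, ?_⟩) ⟨?_, ?_⟩)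
  · obtain ⟨⟨α, hα, hαm, hIb⟩, hx⟩ := I.2
    refine ⟨Dvd.intro_left _ rfl, ⟨α, hα, hαm, hIb⟩, ?_⟩
    rw [map_mul, Nat.cast_mul]
    exact mul_le_mul_of_nonneg_right hx hNb.le
  · intro I I' h
    have h' : I.1 * b = I'.1 * b := congrArg Subtype.val h
    exact Subtype.ext (mul_right_cancel₀ hb h')
  · rintro ⟨P, ⟨c, rfl⟩, ⟨γ, hγ, hγm, hP⟩, hN⟩
    refine ⟨⟨c, ⟨γ, hγ, hγm, by rw [mul_comm, hP]⟩, ?_⟩, Subtype.ext (mul_comm _ _)⟩
    rw [map_mul, Nat.cast_mul, mul_comm] at hN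
    exact le_of_mul_le_mul_right hN hNb

/-- membership in a dilate of `normLeOne`. -/
theorem mem_smul_normLeOne {t : ℝ} (ht : 0 < t) (y : mixedSpace K) :
    y ∈ t • normLeOne K ↔
      y ∈ fundamentalCone K ∧ mixedEmbedding.norm y ≤ t ^ finrank ℚ K := by
  rw [Set.mem_smul_set_iff_inv_smul_mem₀ ht.ne', mem_normLeOne,
    smul_mem_iff_mem (inv_ne_zero ht.ne'), mixedEmbedding.norm_smul, abs_of_pos (inv_pos.mpr ht),
    inv_pow, inv_mul_le_iff₀ (pow_pos ht _), mul_one]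

/-- the norm of the principal ideal `(β)` is the norm of the image of `β` in the mixed space. -/
theorem absNorm_span_eq_norm (β : 𝓞 K) :
    (Ideal.absNorm (Ideal.span {β}) : ℝ) = mixedEmbedding.norm (mixedEmbedding K (β : K)) := by
  rw [Ideal.absNorm_span_singleton, Nat.cast_natAbs, ← Rat.cast_intCast, Int.cast_abs,
    Algebra.coe_norm_int, ← norm_eq_norm]

theorem ne_zero_of_mem_cone {β : 𝓞 K} (h : mixedEmbedding K (β : K) ∈ fundamentalCone K) :
    β ≠ 0 := by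
  rintro rfl
  have := h.2
  simp at this

/-- Elements of the fundamental cone in the class of the unit `r` modulo `m`. -/
def ZPred (m b : Ideal (𝓞 K)) (X : ℝ) (r : (𝓞 K)ˣ) (β : 𝓞 K) : Prop :=
  mixedEmbedding K (β : K) ∈ fundamentalCone K ∧ β ∈ b ∧ β - (r : 𝓞 K) ∈ m ∧
    mixedEmbedding.norm (mixedEmbedding K (β : K)) ≤ X

theorem prinPred_span_iff (m b : Ideal (𝓞 K)) (X : ℝ) {β : 𝓞 K} (hβ : β ≠ 0) :
    PrinPred m b X (Ideal.span {β}) ↔
      β ∈ b ∧ (∃ u : (𝓞 K)ˣ, β - (u : 𝓞 K) ∈ m) ∧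
        mixedEmbedding.norm (mixedEmbedding K (β : K)) ≤ X := by
  rw [PrinPred, Ideal.dvd_span_singleton, absNorm_span_eq_norm]
  refine and_congr_right fun _ => and_congr_left fun _ => ?_
  constructor
  · rintro ⟨γ, -, hγm, hγ⟩
    obtain ⟨u, hu⟩ := Ideal.span_singleton_eq_span_singleton.mp hγ
    refine ⟨u⁻¹, ?_⟩
    have : β - ((u⁻¹ : (𝓞 K)ˣ) : 𝓞 K) = ((u⁻¹ : (𝓞 K)ˣ) : 𝓞 K) * (γ - 1) := by
      rw [← hu, mul_sub, mul_one, mul_comm β, ← mul_assoc, Units.inv_mul, one_mul]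
    rw [this]
    exact Ideal.mul_mem_left _ _ hγm
  · rintro ⟨u, hu⟩
    refine ⟨((u⁻¹ : (𝓞 K)ˣ) : 𝓞 K) * β, mul_ne_zero (Units.ne_zero _) hβ, ?_, ?_⟩
    · have : ((u⁻¹ : (𝓞 K)ˣ) : 𝓞 K) * β - 1 = ((u⁻¹ : (𝓞 K)ˣ) : 𝓞 K) * (β - u) := by
        rw [mul_sub, Units.inv_mul]
      rw [this]
      exact Ideal.mul_mem_left _ _ hu
    · rw [Ideal.span_singleton_eq_span_singleton]
      exact ⟨u⁻¹, mul_comm _ _⟩

/-- the equivalence of Step B (Mathlib's `integerSetEquiv`). -/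
def equivB (m b : Ideal (𝓞 K)) (X : ℝ) :
    {a : integerSet K // PrinPred m b X (Ideal.span {(preimageOfMemIntegerSet a : 𝓞 K)})} ≃
      {P : Ideal (𝓞 K) // PrinPred m b X P} × Units.torsion K := by
  refine (Equiv.subtypeEquiv (integerSetEquiv K)
    (p := fun a => PrinPred m b X (Ideal.span {(preimageOfMemIntegerSet a : 𝓞 K)}))
    (q := fun y => PrinPred m b X (y.1.1 : Ideal (𝓞 K))) (fun a => Iff.rfl)).trans ?_
  refine (Equiv.prodSubtypeFstEquivSubtypeProd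
    (p := fun I : {I : (Ideal (𝓞 K))⁰ // Submodule.IsPrincipal I.val} =>
      PrinPred m b X (I.1 : Ideal (𝓞 K)))).trans ?_
  refine Equiv.prodCongrLeft fun _ => ?_
  exact
    { toFun := fun I => ⟨I.1.1.1, I.2⟩
      invFun := fun P => ⟨⟨⟨P.1, mem_nonZeroDivisors_of_ne_zero P.2.ne_bot⟩, P.2.isPrincipal⟩, P.2⟩
      left_inv := fun I => rfl
      right_inv := fun P => rfl }

/-- Step C1: points of `integerSet K` ↔ integers of the cone. -/
def equivC (m b : Ideal (𝓞 K)) (X : ℝ) :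
    {a : integerSet K // PrinPred m b X (Ideal.span {(preimageOfMemIntegerSet a : 𝓞 K)})} ≃
      {β : 𝓞 K // mixedEmbedding K (β : K) ∈ fundamentalCone K ∧
        PrinPred m b X (Ideal.span {β})} where
  toFun a := ⟨(preimageOfMemIntegerSet a.1 : 𝓞 K), by
    rw [mixedEmbedding_preimageOfMemIntegerSet]; exact a.1.2.1, a.2⟩
  invFun β := ⟨⟨mixedEmbedding K (β.1 : K), mem_integerSet.mpr ⟨β.2.1, β.1, rfl⟩⟩, by
    rw [preimageOfMemIntegerSet_mixedEmbedding]; exact β.2.2⟩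
  left_inv a := Subtype.ext (Subtype.ext (mixedEmbedding_preimageOfMemIntegerSet a.1))
  right_inv β := Subtype.ext (preimageOfMemIntegerSet_mixedEmbedding _)

instance finite_prinPred (m b : Ideal (𝓞 K)) (X : ℝ) :
    Finite {P : Ideal (𝓞 K) // PrinPred m b X P} := by
  have : {P : Ideal (𝓞 K) | PrinPred m b X P}.Finite :=
    (Ideal.finite_setOfPred_absNorm_le ⌊X⌋₊).subset fun P hP => Nat.le_floor hP.2.2
  exact this.to_subtype

instance finite_cone (m b : Ideal (𝓞 K)) (X : ℝ) :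
    Finite {β : 𝓞 K // mixedEmbedding K (β : K) ∈ fundamentalCone K ∧
        PrinPred m b X (Ideal.span {β})} :=
  Finite.of_equiv _ ((equivB m b X).symm.trans (equivC m b X))

/-- Step B + C1. -/
theorem card_cone_eq (m b : Ideal (𝓞 K)) (X : ℝ) :
    Nat.card {β : 𝓞 K // mixedEmbedding K (β : K) ∈ fundamentalCone K ∧
        PrinPred m b X (Ideal.span {β})} =
      Nat.card {P : Ideal (𝓞 K) // PrinPred m b X P} * Units.torsionOrder K := by
  rw [Units.torsionOrder, ← Nat.card_prod]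
  exact Nat.card_congr ((equivC m b X).symm.trans (equivB m b X))

/-- The residues of the units modulo `m`. -/
def UnitRes (m : Ideal (𝓞 K)) : Type :=
  {ρ : 𝓞 K ⧸ m // ∃ u : (𝓞 K)ˣ, Ideal.Quotient.mk m (u : 𝓞 K) = ρ}

/-- a unit in the class `ρ`. -/
def UnitRes.rep {m : Ideal (𝓞 K)} (ρ : UnitRes m) : (𝓞 K)ˣ := ρ.2.choose

omit [NumberField K] in
theorem UnitRes.mk_rep {m : Ideal (𝓞 K)} (ρ : UnitRes m) :
    Ideal.Quotient.mk m (ρ.rep : 𝓞 K) = ρ.1 := ρ.2.choose_spec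

instance (m : Ideal (𝓞 K)) : Nonempty (UnitRes m) := ⟨⟨_, 1, rfl⟩⟩

theorem finite_unitRes {m : Ideal (𝓞 K)} (hm : m ≠ ⊥) : Finite (UnitRes m) := by
  have : Finite (𝓞 K ⧸ m) := Ideal.finiteQuotientOfFreeOfNeBot m hm
  unfold UnitRes
  infer_instance

/-- Step C2: decomposition according to the class modulo `m`. -/
theorem card_cone_eq_sum (m b : Ideal (𝓞 K)) (X : ℝ) [Fintype (UnitRes m)] :
    Nat.card {β : 𝓞 K // mixedEmbedding K (β : K) ∈ fundamentalCone K ∧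
        PrinPred m b X (Ideal.span {β})} =
      ∑ ρ : UnitRes m, Nat.card {β : 𝓞 K // ZPred m b X ρ.rep β} := by
  set Z := {β : 𝓞 K // mixedEmbedding K (β : K) ∈ fundamentalCone K ∧
        PrinPred m b X (Ideal.span {β})} with hZ
  have hu : ∀ z : Z, ∃ u : (𝓞 K)ˣ, Ideal.Quotient.mk m (u : 𝓞 K) = Ideal.Quotient.mk m z.1 := by
    intro z
    obtain ⟨u, hu⟩ := ((prinPred_span_iff m b X (ne_zero_of_mem_cone z.2.1)).1 z.2.2).2.1
    exact ⟨u, (Ideal.Quotient.eq.2 hu).symm⟩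
  let f : Z → UnitRes m := fun z => ⟨Ideal.Quotient.mk m z.1, hu z⟩
  rw [← Nat.card_congr (Equiv.sigmaFiberEquiv f), Nat.card_sigma]
  refine Finset.sum_congr rfl fun ρ _ => Nat.card_congr ?_
  exact
    { toFun := fun z => ⟨z.1.1, z.1.2.1,
        ((prinPred_span_iff m b X (ne_zero_of_mem_cone z.1.2.1)).1 z.1.2.2).1, by
          have h1 : Ideal.Quotient.mk m z.1.1 = ρ.1 := congrArg Subtype.val z.2
          rw [← ρ.mk_rep] at h1
          exact Ideal.Quotient.eq.1 h1,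
        ((prinPred_span_iff m b X (ne_zero_of_mem_cone z.1.2.1)).1 z.1.2.2).2.2⟩
      invFun := fun β => ⟨⟨β.1, β.2.1, (prinPred_span_iff m b X (ne_zero_of_mem_cone β.2.1)).2
          ⟨β.2.2.1, ⟨ρ.rep, β.2.2.2.1⟩, β.2.2.2.2⟩⟩, by
          apply Subtype.ext
          show Ideal.Quotient.mk m β.1 = ρ.1
          rw [← ρ.mk_rep]
          exact Ideal.Quotient.eq.2 β.2.2.2.1⟩
      left_inv := fun z => rfl
      right_inv := fun β => rfl }

/-- The lattice of the nonzero ideal `J` in the mixed space. -/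
abbrev latt (J : Ideal (𝓞 K)) (hJ : J ≠ ⊥) : Submodule ℤ (mixedSpace K) :=
  idealLattice K (FractionalIdeal.mk0 K ⟨J, mem_nonZeroDivisors_of_ne_zero hJ⟩)

theorem mem_latt {J : Ideal (𝓞 K)} {hJ : J ≠ ⊥} {x : mixedSpace K} :
    x ∈ latt J hJ ↔ ∃ γ : 𝓞 K, γ ∈ J ∧ mixedEmbedding K (γ : K) = x := by
  rw [latt, mem_idealLattice]
  simp only [FractionalIdeal.coe_mk0, SetLike.mem_coe, FractionalIdeal.mem_coeIdeal]
  constructor
  · rintro ⟨y, ⟨γ, hγ, rfl⟩, rfl⟩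
    exact ⟨γ, hγ, rfl⟩
  · rintro ⟨γ, hγ, rfl⟩
    exact ⟨_, ⟨γ, hγ, rfl⟩, rfl⟩

theorem mixedEmbedding_int_injective :
    Function.Injective (fun β : 𝓞 K => mixedEmbedding K (β : K)) :=
  (mixedEmbedding_injective K).comp RingOfIntegers.coe_injective

/-- Step D: lattice points of the translate `r α₀ + b m` in the dilated region ↔ elements of the
cone in the class of `r`. -/
theorem card_latticePoints_eq (m b : Ideal (𝓞 K)) (hbm : b ⊔ m = ⊤) (hJ : b * m ≠ ⊥)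
    (r : (𝓞 K)ˣ) (α₀ : 𝓞 K) (hα₀b : α₀ ∈ b) (hα₀m : α₀ - 1 ∈ m) {t : ℝ} (ht : 0 < t) :
    Nat.card {ℓ : latt (b * m) hJ //
        mixedEmbedding K (((r : 𝓞 K) * α₀ : 𝓞 K) : K) + (ℓ : mixedSpace K) ∈ t • normLeOne K} =
      Nat.card {β : 𝓞 K // ZPred m b (t ^ finrank ℚ K) r β} := by
  symm
  have key : ∀ β : 𝓞 K, β ∈ b → β - (r : 𝓞 K) ∈ m → β - (r : 𝓞 K) * α₀ ∈ b * m := by
    intro β hβ hβm
    rw [Ideal.mul_eq_inf_of_coprime hbm]
    refine ⟨b.sub_mem hβ (b.mul_mem_left _ hα₀b), ?_⟩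
    have : β - (r : 𝓞 K) * α₀ = (β - r) - r * (α₀ - 1) := by ring
    rw [this]
    exact m.sub_mem hβm (m.mul_mem_left _ hα₀m)
  refine Nat.card_congr (Equiv.ofBijective
    (fun β => ⟨⟨mixedEmbedding K ((β.1 - (r : 𝓞 K) * α₀ : 𝓞 K) : K),
      mem_latt.2 ⟨_, key β.1 β.2.2.1 β.2.2.2.1, rfl⟩⟩, ?_⟩) ⟨?_, ?_⟩)
  · have : mixedEmbedding K (((r : 𝓞 K) * α₀ : 𝓞 K) : K) +
        mixedEmbedding K ((β.1 - (r : 𝓞 K) * α₀ : 𝓞 K) : K) = mixedEmbedding K (β.1 : K) := by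
      rw [← map_add, ← map_add, add_sub_cancel]
    show mixedEmbedding K (((r : 𝓞 K) * α₀ : 𝓞 K) : K) +
        mixedEmbedding K ((β.1 - (r : 𝓞 K) * α₀ : 𝓞 K) : K) ∈ t • normLeOne K
    rw [this, mem_smul_normLeOne ht]
    exact ⟨β.2.1, β.2.2.2.2⟩
  · intro β β' h
    have h1 := congrArg (fun z => (z.1 : mixedSpace K)) h
    simp only at h1
    have h2 := mixedEmbedding_int_injective h1
    exact Subtype.ext (sub_left_injective h2)
  · rintro ⟨⟨x, hx⟩, hℓ⟩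
    obtain ⟨γ, hγ, rfl⟩ := mem_latt.1 hx
    have hsum : mixedEmbedding K (((r : 𝓞 K) * α₀ : 𝓞 K) : K) + mixedEmbedding K (γ : K) =
        mixedEmbedding K (((r : 𝓞 K) * α₀ + γ : 𝓞 K) : K) := by
      rw [← map_add, ← map_add]
    simp only [hsum, mem_smul_normLeOne ht] at hℓ
    have hγb : γ ∈ b := Ideal.mul_le_left hγ
    have hγm : γ ∈ m := Ideal.mul_le_right hγ
    refine ⟨⟨(r : 𝓞 K) * α₀ + γ, hℓ.1, b.add_mem (b.mul_mem_left _ hα₀b) hγb, ?_, hℓ.2⟩, ?_⟩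
    · have : (r : 𝓞 K) * α₀ + γ - r = r * (α₀ - 1) + γ := by ring
      rw [this]
      exact m.add_mem (m.mul_mem_left _ hα₀m) hγm
    · apply Subtype.ext
      apply Subtype.ext
      simp

/-- **The count of CNT-4 in lattice terms**: for `x`, `t` with `t ^ n = x * N b`, `t > 0`,
`torsionOrder K * #{I in the ray class inverse to b, N I ≤ x}` is the sum over the residues `ρ`
of units modulo `m` of the number of points of `r_ρ α₀ + b m` in `t • normLeOne K`. -/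
theorem card_rayClass_mul_torsionOrder (m b : Ideal (𝓞 K)) (hb : b ≠ ⊥) (hbm : b ⊔ m = ⊤)
    (hJ : b * m ≠ ⊥) (α₀ : 𝓞 K) (hα₀b : α₀ ∈ b) (hα₀m : α₀ - 1 ∈ m) [Fintype (UnitRes m)]
    {t : ℝ} (ht : 0 < t) {x : ℝ} (hx : t ^ finrank ℚ K = x * Ideal.absNorm b) :
    Nat.card {I : Ideal (𝓞 K) // InRayClassInv m b I ∧ (Ideal.absNorm I : ℝ) ≤ x} *
        Units.torsionOrder K =
      ∑ ρ : UnitRes m, Nat.card {ℓ : latt (b * m) hJ //
        mixedEmbedding K (((ρ.rep : 𝓞 K) * α₀ : 𝓞 K) : K) + (ℓ : mixedSpace K) ∈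
          t • normLeOne K} := by
  rw [card_rayClass_eq m b hb, ← card_cone_eq, card_cone_eq_sum, ← hx]
  exact Finset.sum_congr rfl fun ρ _ =>
    (card_latticePoints_eq m b hbm hJ ρ.rep α₀ hα₀b hα₀m ht).symm

end Fermat.Agent.S14x.Cnt.H5
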