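import Mathlib
import Fermat.Agent.S14x.Cnt.H5_RayBij

/-!
# S14 / CNT-4 (helper5), part 2: `stRayCount : StLattice → StFrontier K → StRayCount K`

The number of integral ideals `I` of norm `≤ x` in the ray class modulo `m` inverse to the class
of `b` is `κ x + O (x ^ (1 - 1/n))` with
`κ = e * vol (normLeOne K) / (w * N m * 2⁻¹ ^ r₂ * √|d_K|)`, `e` the number of residues of units
modulo `m`, `w = torsionOrder K`: independent of `b`.
-/

set_option autoImplicit false

open MeasureTheory Module NumberField NumberField.mixedEmbedding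
  NumberField.mixedEmbedding.fundamentalCone
open scoped Pointwise nonZeroDivisors

noncomputable section

namespace Fermat.Agent.S14x.Cnt.H5

variable (K : Type) [Field K] [NumberField K]

open scoped Classical in
theorem latticeCount_normLeOne (h1 : StLattice) (h3 : StFrontier K)
    (J : Ideal (𝓞 K)) (hJ : J ≠ ⊥) :
    LatticeCount (volume : Measure (mixedSpace K)) (latt J hJ) (normLeOne K) := by
  refine h1 (mixedSpace K) volume (latt J hJ) (normLeOne K) (isBounded_normLeOne K)
    (measurableSet_normLeOne K) ?_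
  rw [mixedEmbedding.finrank]
  exact h3

open scoped Classical in
/-- the volume of `normLeOne K` is positive. -/
theorem volume_real_normLeOne_pos :
    0 < (volume : Measure (mixedSpace K)).real (normLeOne K) := by
  rw [measureReal_def, volume_normLeOne, ENNReal.toReal_mul, ENNReal.toReal_mul,
    ENNReal.toReal_pow, ENNReal.toReal_pow, ENNReal.toReal_ofNat, ENNReal.coe_toReal,
    NNReal.coe_real_pi, ENNReal.toReal_ofReal (Units.regulator_pos K).le]
  exact mul_pos (mul_pos (pow_pos two_pos _) (pow_pos Real.pi_pos _)) (Units.regulator_pos K)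

/-- the covolume of the unit lattice constant. -/
def c₀ : ℝ := (2⁻¹) ^ InfinitePlace.nrComplexPlaces K * √|(discr K : ℝ)|

theorem c₀_pos : 0 < c₀ K := by
  unfold c₀
  have : (discr K : ℝ) ≠ 0 := by exact_mod_cast discr_ne_zero K
  positivity

open scoped Classical in
theorem covolume_latt (J : Ideal (𝓞 K)) (hJ : J ≠ ⊥) :
    ZLattice.covolume (latt J hJ) (volume : Measure (mixedSpace K)) =
      (Ideal.absNorm J : ℝ) * c₀ K := by
  rw [latt, covolume_idealLattice, FractionalIdeal.coe_mk0, FractionalIdeal.coeIdeal_absNorm,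
    Rat.cast_natCast, c₀, mul_assoc]

open scoped Classical in
/-- **[CNT-4]** ideals of a ray class: `κ x + O (x ^ (1 - 1/n))`, the same `κ` for all classes,
from the abstract lattice point principle and the covering bound for `frontier (normLeOne K)`. -/
theorem stRayCount (h1 : StLattice) (h3 : StFrontier K) : StRayCount K := by
  intro m hm
  have := finite_unitRes hm
  let _ : Fintype (UnitRes m) := Fintype.ofFinite _
  set e : ℝ := (Fintype.card (UnitRes m) : ℝ) with he
  have he_pos : 0 < e := by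
    rw [he]; exact_mod_cast (Fintype.card_pos : 0 < Fintype.card (UnitRes m))
  set w : ℝ := (Units.torsionOrder K : ℝ) with hw
  have hw_pos : 0 < w := by
    rw [hw]; exact_mod_cast Nat.pos_of_ne_zero (Units.torsionOrder_ne_zero K)
  set V : ℝ := (volume : Measure (mixedSpace K)).real (normLeOne K) with hV
  have hV_pos : 0 < V := volume_real_normLeOne_pos K
  have hc₀ := c₀_pos K
  have hNpos : ∀ I : Ideal (𝓞 K), I ≠ ⊥ → (1 : ℝ) ≤ Ideal.absNorm I := by
    intro I hI
    have : Ideal.absNorm I ≠ 0 := fun h => hI (Ideal.absNorm_eq_zero_iff.mp h)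
    exact_mod_cast Nat.one_le_iff_ne_zero.mpr this
  have hNm : (0 : ℝ) < Ideal.absNorm m := lt_of_lt_of_le one_pos (hNpos m hm)
  refine ⟨e * V / (w * Ideal.absNorm m * c₀ K), by positivity, ?_⟩
  intro b hb hbm
  have hNb1 : (1 : ℝ) ≤ Ideal.absNorm b := hNpos b hb
  have hNb : (0 : ℝ) < Ideal.absNorm b := lt_of_lt_of_le one_pos hNb1
  have hJ : b * m ≠ ⊥ := mul_ne_zero hb hm
  obtain ⟨α₀, hα₀b, hα₀m⟩ : ∃ α₀ ∈ b, α₀ - 1 ∈ m := by
    have h1m : (1 : 𝓞 K) ∈ b ⊔ m := by rw [hbm]; trivial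
    obtain ⟨y, hy, z, hz, hyz⟩ := Submodule.mem_sup.1 h1m
    refine ⟨y, hy, ?_⟩
    have : y - 1 = -z := by rw [← hyz]; ring
    rw [this]; exact m.neg_mem hz
  have hLC := latticeCount_normLeOne K h1 h3 (b * m) hJ
  choose C hC using fun ρ : UnitRes m =>
    hLC (mixedEmbedding K (((ρ.rep : 𝓞 K) * α₀ : 𝓞 K) : K))
  set n := finrank ℚ K with hn
  have hn_pos : 0 < n := finrank_pos
  have hnR : (0 : ℝ) < n := by exact_mod_cast hn_pos
  refine ⟨(∑ ρ, C ρ) / w * (Ideal.absNorm b : ℝ) ^ (1 - 1 / (n : ℝ)), ?_⟩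
  intro x hx
  have hx0 : 0 < x := lt_of_lt_of_le one_pos hx
  set X : ℝ := x * Ideal.absNorm b with hX
  have hX1 : 1 ≤ X := one_le_mul_of_one_le_of_one_le hx hNb1
  have hX0 : 0 ≤ X := le_trans zero_le_one hX1
  set t : ℝ := X ^ (1 / (n : ℝ)) with ht
  have ht1 : 1 ≤ t := Real.one_le_rpow hX1 (by positivity)
  have ht0 : 0 < t := lt_of_lt_of_le one_pos ht1
  have htn : t ^ n = X := by
    rw [ht, ← Real.rpow_natCast, ← Real.rpow_mul hX0, one_div_mul_cancel hnR.ne',
      Real.rpow_one]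
  have htn1 : t ^ (n - 1) = X ^ (1 - 1 / (n : ℝ)) := by
    rw [ht, ← Real.rpow_natCast, ← Real.rpow_mul hX0]
    congr 1
    rw [Nat.cast_sub hn_pos, Nat.cast_one]
    field_simp
  have hcard := card_rayClass_mul_torsionOrder m b hb hbm hJ α₀ hα₀b hα₀m ht0 htn
  set A : ℝ := (Nat.card {I : Ideal (𝓞 K) // InRayClassInv m b I ∧
    (Ideal.absNorm I : ℝ) ≤ x} : ℝ) with hA
  set N : UnitRes m → ℝ := fun ρ => (Nat.card {ℓ : latt (b * m) hJ //
        mixedEmbedding K (((ρ.rep : 𝓞 K) * α₀ : 𝓞 K) : K) + (ℓ : mixedSpace K) ∈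
          t • normLeOne K} : ℝ) with hN
  have hcardR : A * w = ∑ ρ, N ρ := by
    have := congrArg (Nat.cast : ℕ → ℝ) hcard
    rw [Nat.cast_mul, Nat.cast_sum] at this
    exact this
  set M : ℝ := V / ((Ideal.absNorm (b * m) : ℝ) * c₀ K) * X with hM
  have hmain : ∀ ρ, |N ρ - M| ≤ C ρ * X ^ (1 - 1 / (n : ℝ)) := by
    intro ρ
    have := hC ρ t ht1
    rw [mixedEmbedding.finrank, ← hn, htn, htn1, covolume_latt] at this
    exact this
  have hsum : ∑ ρ, (N ρ - M) = (A - e * V / (w * Ideal.absNorm m * c₀ K) * x) * w := by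
    rw [Finset.sum_sub_distrib, Finset.sum_const, Finset.card_univ, nsmul_eq_mul, ← hcardR,
      ← he, hM, hX, map_mul, Nat.cast_mul]
    field_simp
  have hle : |(A - e * V / (w * Ideal.absNorm m * c₀ K) * x) * w| ≤
      (∑ ρ, C ρ) * X ^ (1 - 1 / (n : ℝ)) := by
    rw [← hsum, Finset.sum_mul]
    exact (Finset.abs_sum_le_sum_abs _ _).trans (Finset.sum_le_sum fun ρ _ => hmain ρ)
  rw [abs_mul, abs_of_pos hw_pos, ← le_div_iff₀ hw_pos] at hle
  refine hle.trans (le_of_eq ?_)
  rw [hX, Real.mul_rpow hx0.le hNb.le]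
  ring

end Fermat.Agent.S14x.Cnt.H5
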