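import Mathlib
import Fermat.Agent.S14x.Cnt.H5_RayCount
import Fermat.Agent.S14x.Cnt.H23_Lattice
import Fermat.Agent.S14x.Cnt.H13_FrontierCov

/-!
# S14 / CNT-4 (helper5): `StRayCount K`, hypothesis-free

`H5.stRayCount` (this package) with the landed inputs `Cnt.stLattice` (helper23, CNT-1) and
`Cnt.H13.stFrontier` (helper13, CNT-3).
-/

set_option autoImplicit false

namespace Fermat.Agent.S14x.Cnt.H5

/-- **[CNT-4]**, unconditional: the number of integral ideals of norm `≤ x` in a ray class modulo
`m` is `κ x + O (x ^ (1 - 1/n))`, with `κ > 0` independent of the class. -/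
theorem stRayCount_final (K : Type) [Field K] [NumberField K] : StRayCount K :=
  stRayCount K stLattice (H13.stFrontier K)

end Fermat.Agent.S14x.Cnt.H5
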