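import Mathlib
import Fermat.Agent.S14x.Cnt.H5_RayCountFinal
import Fermat.Agent.S14x.Cnt.H23_Adapter

/-!
# S14 / CNT (helper5): the package deliverable `Asm.StCNT`, hypothesis-free

`Cnt.stCNT_of_rayCount` (helper23's adapter) applied to `H5.stRayCount_final`
(= `H5.stRayCount` + `Cnt.stLattice` (helper23) + `Cnt.H13.stFrontier` (helper13)).
-/

set_option autoImplicit false

namespace Fermat.Agent.S14x.Cnt.H5

/-- **Deliverable of CNT**: the number of integral ideals of norm `≤ x` in a ray class modulo
`𝔪` is `κ x + O (x ^ (1 - 1/n))`, with `κ > 0` independent of the class. -/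
theorem stCNT : Fermat.Agent.S14x.Asm.StCNT :=
  stCNT_of_rayCount fun K _ _ => stRayCount_final K

end Fermat.Agent.S14x.Cnt.H5
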