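import Mathlib
import Fermat.Agent.S14x.Cnt.H23_Lattice
import Fermat.Agent.S14x.Cnt.H13_FrontierCov

/-!
# S14 / CNT-4b (helper13): the lattice bridge

For a nonzero ideal `J` of `𝓞 K` and `β : 𝓞 K`, the number of `a ≡ β mod J` whose image lies in
Mathlib's `fundamentalCone K` with `mixedEmbedding.norm ≤ X` is
`kappa0 K / absNorm J * X + O (X ^ (1 - 1/n))` (`bridge`), from helper23's
`latticeCount_of_covBound` and `H13.stFrontier`.
-/

set_option autoImplicit false

namespace Fermat.Agent.S14x.Cnt.H13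

open MeasureTheory Module NumberField NumberField.mixedEmbedding
  NumberField.mixedEmbedding.fundamentalCone NumberField.InfinitePlace
open Fermat.Agent.S14x.Cnt
open scoped Pointwise Classical nonZeroDivisors

noncomputable section

variable (K : Type) [Field K] [NumberField K]

/-- The density constant of the lattice bridge. -/
def kappa0 : ℝ :=
  (volume (normLeOne K)).toReal / ((2 : ℝ)⁻¹ ^ nrComplexPlaces K * Real.sqrt |(discr K : ℝ)|)

theorem kappa0_pos : 0 < kappa0 K := by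
  unfold kappa0
  refine div_pos ?_ ?_
  · rw [volume_normLeOne]
    refine ENNReal.toReal_pos ?_ ?_
    · refine mul_ne_zero (mul_ne_zero (by positivity) ?_) ?_
      · exact pow_ne_zero _ (by simp [NNReal.pi_ne_zero])
      · simpa using NumberField.Units.regulator_pos K
    · refine ENNReal.mul_ne_top (ENNReal.mul_ne_top ?_ ?_) ENNReal.ofReal_ne_top
      · exact ENNReal.pow_ne_top (by simp)
      · exact ENNReal.pow_ne_top (by simp)
  · refine mul_pos (by positivity) (Real.sqrt_pos.2 ?_)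
    exact abs_pos.2 (by exact_mod_cast discr_ne_zero K)

theorem mem_smul_normLeOne_iff {t : ℝ} (ht : 0 < t) (x : mixedSpace K) :
    x ∈ t • normLeOne K ↔
      x ∈ fundamentalCone K ∧ mixedEmbedding.norm x ≤ t ^ finrank ℚ K := by
  rw [Set.mem_smul_set_iff_inv_smul_mem₀ ht.ne', mem_normLeOne,
    smul_mem_iff_mem (inv_ne_zero ht.ne'), mixedEmbedding.norm_smul, abs_of_pos (inv_pos.2 ht),
    inv_pow, inv_mul_le_iff₀ (pow_pos ht _), mul_one]

/-- The unit of fractional ideals attached to a nonzero integral ideal. -/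
def idealUnit (J : Ideal (𝓞 K)) (hJ : J ≠ ⊥) : (FractionalIdeal (𝓞 K)⁰ K)ˣ :=
  FractionalIdeal.mk0 K ⟨J, mem_nonZeroDivisors_of_ne_zero hJ⟩

theorem mem_idealUnit_iff (J : Ideal (𝓞 K)) (hJ : J ≠ ⊥) (y : K) :
    y ∈ ((idealUnit K J hJ : (FractionalIdeal (𝓞 K)⁰ K)ˣ) : FractionalIdeal (𝓞 K)⁰ K) ↔
      ∃ z ∈ J, algebraMap (𝓞 K) K z = y := by
  unfold idealUnit
  rw [FractionalIdeal.coe_mk0]
  exact FractionalIdeal.mem_coeIdeal _

theorem absNorm_idealUnit (J : Ideal (𝓞 K)) (hJ : J ≠ ⊥) :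
    (FractionalIdeal.absNorm
      ((idealUnit K J hJ : (FractionalIdeal (𝓞 K)⁰ K)ˣ) : FractionalIdeal (𝓞 K)⁰ K) : ℝ) =
      (Ideal.absNorm J : ℝ) := by
  unfold idealUnit
  rw [FractionalIdeal.coe_mk0, FractionalIdeal.coeIdeal_absNorm]
  simp

/-- The points of the translated ideal lattice in the dilated region, as algebraic integers. -/
theorem card_bridge (J : Ideal (𝓞 K)) (hJ : J ≠ ⊥) (β : 𝓞 K) {t : ℝ} (ht : 0 < t) :
    Nat.card {a : 𝓞 K // a - β ∈ J ∧ mixedEmbedding K (a : K) ∈ fundamentalCone K ∧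
        mixedEmbedding.norm (mixedEmbedding K (a : K)) ≤ t ^ finrank ℚ K} =
      Nat.card {ℓ : idealLattice K (idealUnit K J hJ) //
        mixedEmbedding K (β : K) + (ℓ : mixedSpace K) ∈ t • normLeOne K} := by
  refine Nat.card_congr (Equiv.ofBijective (fun a => ⟨⟨mixedEmbedding K ((a.1 : K) - (β : K)), ?_⟩, ?_⟩)
    ⟨?_, ?_⟩)
  · exact (mem_idealLattice K _).2 ⟨(a.1 : K) - (β : K),
      (mem_idealUnit_iff K J hJ _).2 ⟨a.1 - β, a.2.1, by simp⟩, rfl⟩
  · show mixedEmbedding K (β : K) + mixedEmbedding K ((a.1 : K) - (β : K)) ∈ t • normLeOne K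
    rw [← map_add, add_sub_cancel, mem_smul_normLeOne_iff K ht]
    exact a.2.2
  · intro a b hab
    have h1 : mixedEmbedding K ((a.1 : K) - (β : K)) = mixedEmbedding K ((b.1 : K) - (β : K)) :=
      congrArg (fun x => ((x : { ℓ : idealLattice K (idealUnit K J hJ) //
        mixedEmbedding K (β : K) + (ℓ : mixedSpace K) ∈ t • normLeOne K }).1 : mixedSpace K)) hab
    have h2 := mixedEmbedding_injective K h1
    have h3 : (a.1 : K) = (b.1 : K) := by linear_combination h2
    exact Subtype.ext (RingOfIntegers.ext h3)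
  · rintro ⟨⟨ℓ, hℓ⟩, hprop⟩
    obtain ⟨y, hy, rfl⟩ := (mem_idealLattice K _).1 hℓ
    obtain ⟨z, hz, rfl⟩ := (mem_idealUnit_iff K J hJ y).1 hy
    have hprop' : mixedEmbedding K (β : K) + mixedEmbedding K (algebraMap (𝓞 K) K z) ∈
        t • normLeOne K := hprop
    rw [← map_add, mem_smul_normLeOne_iff K ht] at hprop'
    refine ⟨⟨β + z, by simpa using hz, ?_⟩, ?_⟩
    · simpa using hprop'
    · apply Subtype.ext
      apply Subtype.ext
      simp

/-- **[CNT-4b] the lattice bridge**: the number of algebraic integers `a ≡ β mod J` in the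
fundamental cone with `|N a| ≤ X` is `kappa0 K / N J * X + O (X ^ (1 - 1/n))`. -/
theorem bridge (J : Ideal (𝓞 K)) (hJ : J ≠ ⊥) (β : 𝓞 K) :
    ∃ C : ℝ, ∀ X : ℝ, 1 ≤ X →
      |(Nat.card {a : 𝓞 K // a - β ∈ J ∧ mixedEmbedding K (a : K) ∈ fundamentalCone K ∧
          mixedEmbedding.norm (mixedEmbedding K (a : K)) ≤ X} : ℝ)
        - kappa0 K / (Ideal.absNorm J : ℝ) * X| ≤
      C * X ^ (1 - 1 / (Module.finrank ℚ K : ℝ)) := by
  have hnpos : 0 < finrank ℚ K := finrank_pos
  have hnR : (0 : ℝ) < (finrank ℚ K : ℝ) := by exact_mod_cast hnpos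
  have hfr : CovBound (frontier (normLeOne K)) (finrank ℝ (mixedSpace K) - 1) := by
    rw [mixedEmbedding.finrank]; exact stFrontier K
  have hLC := latticeCount_of_covBound volume (idealLattice K (idealUnit K J hJ)) (normLeOne K)
    (isBounded_normLeOne K) hfr
  obtain ⟨C, hC⟩ := hLC (mixedEmbedding K (β : K))
  refine ⟨C, fun X hX => ?_⟩
  have hX0 : (0 : ℝ) ≤ X := by linarith
  set t : ℝ := X ^ ((1 : ℝ) / (finrank ℚ K : ℝ)) with ht
  have ht1 : 1 ≤ t := Real.one_le_rpow hX (by positivity)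
  have ht0 : 0 < t := lt_of_lt_of_le one_pos ht1
  have htn : t ^ finrank ℚ K = X := by
    rw [ht, ← Real.rpow_natCast, ← Real.rpow_mul hX0, one_div,
      inv_mul_cancel₀ hnR.ne', Real.rpow_one]
  have htn1 : t ^ (finrank ℚ K - 1) = X ^ (1 - 1 / (finrank ℚ K : ℝ)) := by
    rw [ht, ← Real.rpow_natCast, ← Real.rpow_mul hX0]
    congr 1
    rw [Nat.cast_sub hnpos]
    field_simp
    simp
  have key := hC t ht1
  rw [mixedEmbedding.finrank] at key
  have hcard := card_bridge K J hJ β ht0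
  rw [htn] at hcard
  have hmain : volume.real (normLeOne K) /
      ZLattice.covolume (idealLattice K (idealUnit K J hJ)) volume * t ^ finrank ℚ K =
      kappa0 K / (Ideal.absNorm J : ℝ) * X := by
    rw [htn, covolume_idealLattice, absNorm_idealUnit, kappa0, measureReal_def]
    have h1 : (Ideal.absNorm J : ℝ) ≠ 0 := by
      exact_mod_cast (Ideal.absNorm_eq_zero_iff.not.2 hJ)
    have h2 : ((2 : ℝ)⁻¹ ^ nrComplexPlaces K * Real.sqrt |(discr K : ℝ)|) ≠ 0 := by
      refine mul_ne_zero (by positivity) (Real.sqrt_ne_zero'.2 ?_)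
      exact abs_pos.2 (by exact_mod_cast discr_ne_zero K)
    field_simp
  rw [hcard, ← hmain, ← htn1]
  exact key

end

end Fermat.Agent.S14x.Cnt.H13
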