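import Fermat.Agent.S14x.Cnt.H14_Tiles

/-!
# S14 / CNT (helper14): lattice points in `t • D` for `D` with Lipschitz-parametrisable frontier

Standard lattice `ℤ^ι ⊆ ι → ℝ` (sup norm), translated by an arbitrary `v`.
If the frontier of the bounded set `D` is covered by finitely many images of the unit cube of
dimension `m` under maps which are Lipschitz on the cube, then
`|#((v + ℤ^ι) ∩ t • D) - vol(D) t^n| ≤ C t^m` for all `t ≥ 1`, with `C` independent of `v`.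
-/

set_option autoImplicit false
set_option linter.unusedSectionVars false

open MeasureTheory Set
open scoped Pointwise

namespace Fermat.Agent.S14x.Cnt.H14

variable {ι : Type*} [Fintype ι]

/-- A set of sup-diameter `≤ ρ` meets at most `(2 ⌊ρ⌋ + 3) ^ n` tiles. -/
lemma card_outSet_le_of_diam (v : ι → ℝ) (T : Set (ι → ℝ)) (ρ : ℝ) (_hρ : 0 ≤ ρ)
    (hT : ∀ x ∈ T, ∀ y ∈ T, ∀ i, |x i - y i| ≤ ρ) :
    Nat.card (outSet v T) ≤ (2 * ⌊ρ⌋₊ + 3) ^ Fintype.card ι := by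
  classical
  rcases T.eq_empty_or_nonempty with rfl | ⟨x₀, hx₀⟩
  · have : outSet v (∅ : Set (ι → ℝ)) = ∅ := by
      ext ν
      simp [outSet]
    rw [this]
    simp
  set c : ℤ := (⌊ρ⌋₊ : ℤ) + 1 with hc
  have hρc : ρ < c := by
    rw [hc]
    push_cast
    exact Nat.lt_floor_add_one ρ
  set B : Finset (ι → ℤ) :=
    Fintype.piFinset fun i => Finset.Icc (⌊x₀ i - v i⌋ - c) (⌊x₀ i - v i⌋ + c) with hB
  have hsub : outSet v T ⊆ (B : Set (ι → ℤ)) := by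
    rw [outSet_eq_image]
    rintro ν ⟨x, hx, rfl⟩
    rw [Finset.mem_coe, hB, Fintype.mem_piFinset]
    intro i
    rw [Finset.mem_Icc]
    have h1 := hT x hx x₀ hx₀ i
    rw [abs_le] at h1
    show ⌊x₀ i - v i⌋ - c ≤ ⌊x i - v i⌋ ∧ ⌊x i - v i⌋ ≤ ⌊x₀ i - v i⌋ + c
    constructor
    · rw [← Int.floor_sub_intCast]
      apply Int.floor_le_floor
      linarith [h1.1]
    · rw [← Int.floor_add_intCast]
      apply Int.floor_le_floor
      linarith [h1.2]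
  have hcard : B.card = (2 * ⌊ρ⌋₊ + 3) ^ Fintype.card ι := by
    rw [hB, Fintype.card_piFinset]
    have : ∀ i : ι, (Finset.Icc (⌊x₀ i - v i⌋ - c) (⌊x₀ i - v i⌋ + c)).card = 2 * ⌊ρ⌋₊ + 3 := by
      intro i
      rw [Int.card_Icc, hc]
      have : (⌊x₀ i - v i⌋ + ((⌊ρ⌋₊ : ℤ) + 1) + 1 - (⌊x₀ i - v i⌋ - ((⌊ρ⌋₊ : ℤ) + 1))) =
          ((2 * ⌊ρ⌋₊ + 3 : ℕ) : ℤ) := by
        push_cast
        ring
      rw [this, Int.toNat_natCast]
    rw [Finset.prod_congr rfl fun i _ => this i, Finset.prod_const, Finset.card_univ]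
  calc Nat.card (outSet v T) ≤ Nat.card (B : Set (ι → ℤ)) :=
        Nat.card_mono B.finite_toSet hsub
    _ = B.card := by rw [Nat.card_coe_set_eq, Set.ncard_coe_finset]
    _ = _ := hcard

lemma outSet_iUnion {κ : Type*} (v : ι → ℝ) (T : κ → Set (ι → ℝ)) :
    outSet v (⋃ j, T j) = ⋃ j, outSet v (T j) := by
  rw [outSet_eq_image, Set.image_iUnion]
  congr 1
  funext j
  rw [outSet_eq_image]

/-- Union bound. -/
lemma card_outSet_iUnion_le {κ : Type*} [Fintype κ] (v : ι → ℝ) (T : κ → Set (ι → ℝ)) (b : ℕ)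
    (h : ∀ j, Nat.card (outSet v (T j)) ≤ b) :
    Nat.card (outSet v (⋃ j, T j)) ≤ Fintype.card κ * b := by
  rw [outSet_iUnion, Nat.card_coe_set_eq]
  refine (Set.ncard_iUnion_le_of_fintype _).trans ?_
  calc ∑ j, (outSet v (T j)).ncard ≤ ∑ _j : κ, b :=
        Finset.sum_le_sum fun j _ => by
          have := h j
          rwa [Nat.card_coe_set_eq] at this
    _ = Fintype.card κ * b := by simp

/-! ### Subdivision of the unit cube -/

/-- The subcube of side `1 / N` with index `a`. -/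
def subcube {m : ℕ} (N : ℕ) (a : Fin m → Fin N) : Set (Fin m → ℝ) :=
  {u | ∀ l, (a l : ℝ) / N ≤ u l ∧ u l ≤ ((a l : ℝ) + 1) / N}

lemma subcube_subset_Icc {m : ℕ} {N : ℕ} (hN : 0 < N) (a : Fin m → Fin N) :
    subcube N a ⊆ Set.Icc (0 : Fin m → ℝ) 1 := by
  intro u hu
  have hN' : (0 : ℝ) < N := by exact_mod_cast hN
  rw [Set.mem_Icc, Pi.le_def, Pi.le_def]
  refine ⟨fun l => ?_, fun l => ?_⟩
  · exact le_trans (by positivity) (hu l).1
  · refine (hu l).2.trans ?_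
    rw [Pi.one_apply, div_le_one hN']
    have : ((a l : ℕ) : ℝ) + 1 ≤ N := by exact_mod_cast (a l).2
    exact this

lemma Icc_subset_iUnion_subcube {m : ℕ} {N : ℕ} (hN : 0 < N) :
    Set.Icc (0 : Fin m → ℝ) 1 ⊆ ⋃ a : Fin m → Fin N, subcube N a := by
  intro u hu
  have hN' : (0 : ℝ) < N := by exact_mod_cast hN
  rw [Set.mem_Icc, Pi.le_def, Pi.le_def] at hu
  rw [Set.mem_iUnion]
  have key : ∀ l, ∃ a : Fin N, (a : ℝ) / N ≤ u l ∧ u l ≤ ((a : ℝ) + 1) / N := by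
    intro l
    have h0 : 0 ≤ u l := hu.1 l
    have h1 : u l ≤ 1 := hu.2 l
    by_cases hlt : ⌊N * u l⌋₊ < N
    · refine ⟨⟨⌊N * u l⌋₊, hlt⟩, ?_, ?_⟩
      · rw [div_le_iff₀ hN']
        have := Nat.floor_le (mul_nonneg hN'.le h0)
        simpa [mul_comm] using this
      · rw [le_div_iff₀ hN']
        have := (Nat.lt_floor_add_one (N * u l)).le
        simpa [mul_comm] using this
    · have hN1 : N - 1 < N := Nat.sub_lt hN one_pos
      refine ⟨⟨N - 1, hN1⟩, ?_, ?_⟩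
      · rw [div_le_iff₀ hN']
        push Not at hlt
        have h2 : (N : ℝ) ≤ N * u l := by
          have := Nat.floor_le (mul_nonneg hN'.le h0)
          have h3 : (N : ℝ) ≤ (⌊N * u l⌋₊ : ℝ) := by exact_mod_cast hlt
          linarith
        have h3 : ((N - 1 : ℕ) : ℝ) ≤ N := by exact_mod_cast Nat.sub_le N 1
        show ((N - 1 : ℕ) : ℝ) ≤ u l * N
        nlinarith
      · rw [le_div_iff₀ hN']
        have h3 : ((N - 1 : ℕ) : ℝ) + 1 = N := by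
          have : N - 1 + 1 = N := Nat.sub_add_cancel hN
          exact_mod_cast this
        show u l * N ≤ ((N - 1 : ℕ) : ℝ) + 1
        rw [h3]
        nlinarith
  choose a ha using key
  exact ⟨a, ha⟩

lemma dist_le_of_mem_subcube {m : ℕ} {N : ℕ} (hN : 0 < N) (a : Fin m → Fin N)
    {u u' : Fin m → ℝ} (hu : u ∈ subcube N a) (hu' : u' ∈ subcube N a) :
    dist u u' ≤ 1 / N := by
  have hN' : (0 : ℝ) < N := by exact_mod_cast hN
  rw [dist_pi_le_iff (by positivity)]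
  intro l
  rw [Real.dist_eq, abs_le]
  have h1 := hu l
  have h2 := hu' l
  have e : ((a l : ℝ) + 1) / N = (a l : ℝ) / N + 1 / N := by ring
  rw [e] at h1 h2
  constructor <;> linarith [h1.1, h1.2, h2.1, h2.2]

/-! ### The main estimate -/

variable {m : ℕ}

/-- The image of a subcube under `t • φ` has sup-diameter at most the Lipschitz constant. -/
lemma diam_smul_image_subcube (φ : (Fin m → ℝ) → (ι → ℝ)) (K : NNReal)
    (hφ : LipschitzOnWith K φ (Set.Icc 0 1)) {t : ℝ} (ht : 1 ≤ t) (a : Fin m → Fin ⌈t⌉₊) :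
    ∀ x ∈ t • (φ '' subcube ⌈t⌉₊ a), ∀ y ∈ t • (φ '' subcube ⌈t⌉₊ a), ∀ i,
      |x i - y i| ≤ (K : ℝ) := by
  have ht0 : (0 : ℝ) < t := by linarith
  have hN : 0 < ⌈t⌉₊ := Nat.ceil_pos.mpr ht0
  have hN' : (0 : ℝ) < (⌈t⌉₊ : ℝ) := by exact_mod_cast hN
  rintro _ ⟨_, ⟨u, hu, rfl⟩, rfl⟩ _ ⟨_, ⟨u', hu', rfl⟩, rfl⟩ i
  have h1 := hφ.dist_le_mul u (subcube_subset_Icc hN a hu) u' (subcube_subset_Icc hN a hu')
  have h2 := dist_le_of_mem_subcube hN a hu hu'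
  have h3 : dist (φ u i) (φ u' i) ≤ dist (φ u) (φ u') := dist_le_pi_dist _ _ i
  rw [Real.dist_eq] at h3
  have h4 : |φ u i - φ u' i| ≤ (K : ℝ) * (1 / ⌈t⌉₊) :=
    h3.trans (h1.trans (mul_le_mul_of_nonneg_left h2 K.coe_nonneg))
  simp only [Pi.smul_apply, smul_eq_mul]
  rw [← mul_sub, abs_mul, abs_of_pos ht0]
  have h5 : t ≤ ⌈t⌉₊ := Nat.le_ceil t
  calc t * |φ u i - φ u' i| ≤ t * ((K : ℝ) * (1 / ⌈t⌉₊)) :=
        mul_le_mul_of_nonneg_left h4 ht0.le
    _ = (K : ℝ) * (t / ⌈t⌉₊) := by ring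
    _ ≤ (K : ℝ) * 1 := by
        apply mul_le_mul_of_nonneg_left _ K.coe_nonneg
        rw [div_le_one hN']
        exact h5
    _ = K := mul_one _

/-- Number of tiles meeting the frontier of `t • D`. -/
theorem card_outSet_frontier_le (D : Set (ι → ℝ)) (k : ℕ)
    (φ : Fin k → (Fin m → ℝ) → (ι → ℝ)) (K : NNReal)
    (hφ : ∀ j, LipschitzOnWith K (φ j) (Set.Icc 0 1))
    (hfr : frontier D ⊆ ⋃ j, φ j '' Set.Icc 0 1) (v : ι → ℝ) {t : ℝ} (ht : 1 ≤ t) :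
    (Nat.card (outSet v (frontier (t • D))) : ℝ) ≤
      (k * 2 ^ m * (2 * ⌊(K : ℝ)⌋₊ + 3) ^ Fintype.card ι : ℕ) * t ^ m := by
  have ht0 : (0 : ℝ) < t := by linarith
  have hN : 0 < ⌈t⌉₊ := Nat.ceil_pos.mpr ht0
  have hfr' : frontier (t • D) ⊆
      ⋃ ja : Fin k × (Fin m → Fin ⌈t⌉₊), t • (φ ja.1 '' subcube ⌈t⌉₊ ja.2) := by
    rw [frontier, closure_smul₀' ht0.ne', interior_smul₀ ht0.ne', ← smul_set_sdiff₀ ht0.ne']
    rintro _ ⟨x, hx, rfl⟩
    obtain ⟨_, ⟨j, rfl⟩, u, hu, rfl⟩ := hfr hx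
    obtain ⟨_, ⟨a, rfl⟩, hua⟩ := Icc_subset_iUnion_subcube hN hu
    exact Set.mem_iUnion.mpr ⟨(j, a), Set.smul_mem_smul_set ⟨u, hua, rfl⟩⟩
  have hfin : (outSet v (⋃ ja : Fin k × (Fin m → Fin ⌈t⌉₊),
      t • (φ ja.1 '' subcube ⌈t⌉₊ ja.2))).Finite := by
    rw [outSet_iUnion]
    refine Set.finite_iUnion fun ja => ?_
    have := card_outSet_le_of_diam v _ (K : ℝ) K.coe_nonneg
      (diam_smul_image_subcube (φ ja.1) K (hφ ja.1) ht ja.2)
    by_contra hinf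
    have hinf' : (outSet v (t • (φ ja.1 '' subcube ⌈t⌉₊ ja.2))).Infinite := hinf
    have h0 : Nat.card (outSet v (t • (φ ja.1 '' subcube ⌈t⌉₊ ja.2))) = 0 := by
      rw [Nat.card_coe_set_eq]
      exact hinf'.ncard
    -- an infinite set of tiles meeting a set of bounded diameter is impossible
    have hb : Bornology.IsBounded (t • (φ ja.1 '' subcube ⌈t⌉₊ ja.2)) := by
      rcases (t • (φ ja.1 '' subcube ⌈t⌉₊ ja.2)).eq_empty_or_nonempty with h | ⟨x₀, hx₀⟩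
      · rw [h]; exact Bornology.isBounded_empty
      · rw [Metric.isBounded_iff_subset_closedBall x₀]
        refine ⟨K, fun x hx => ?_⟩
        rw [Metric.mem_closedBall, dist_pi_le_iff K.coe_nonneg]
        intro i
        rw [Real.dist_eq]
        exact diam_smul_image_subcube (φ ja.1) K (hφ ja.1) ht ja.2 x hx x₀ hx₀ i
    exact hinf (finite_outSet v _ hb)
  have h1 : Nat.card (outSet v (frontier (t • D))) ≤
      Nat.card (outSet v (⋃ ja : Fin k × (Fin m → Fin ⌈t⌉₊),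
        t • (φ ja.1 '' subcube ⌈t⌉₊ ja.2))) :=
    Nat.card_mono hfin (outSet_mono v hfr')
  have h2 := card_outSet_iUnion_le v
    (fun ja : Fin k × (Fin m → Fin ⌈t⌉₊) => t • (φ ja.1 '' subcube ⌈t⌉₊ ja.2))
    ((2 * ⌊(K : ℝ)⌋₊ + 3) ^ Fintype.card ι)
    (fun ja => card_outSet_le_of_diam v _ (K : ℝ) K.coe_nonneg
      (diam_smul_image_subcube (φ ja.1) K (hφ ja.1) ht ja.2))
  have h3 : Fintype.card (Fin k × (Fin m → Fin ⌈t⌉₊)) = k * ⌈t⌉₊ ^ m := by
    simp [Fintype.card_prod, Fintype.card_pi]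
  rw [h3] at h2
  have h4 : (⌈t⌉₊ : ℝ) ≤ 2 * t := by
    have := (Nat.ceil_lt_add_one ht0.le).le
    linarith
  have h5 : ((⌈t⌉₊ : ℝ)) ^ m ≤ 2 ^ m * t ^ m := by
    rw [← mul_pow]
    exact pow_le_pow_left₀ (by positivity) h4 m
  calc (Nat.card (outSet v (frontier (t • D))) : ℝ)
      ≤ ((k * ⌈t⌉₊ ^ m * (2 * ⌊(K : ℝ)⌋₊ + 3) ^ Fintype.card ι : ℕ) : ℝ) := by
        exact_mod_cast h1.trans h2
    _ = (k : ℝ) * (⌈t⌉₊ : ℝ) ^ m * ((2 * ⌊(K : ℝ)⌋₊ + 3 : ℕ) : ℝ) ^ Fintype.card ι := by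
        push_cast
        ring
    _ ≤ (k : ℝ) * (2 ^ m * t ^ m) * ((2 * ⌊(K : ℝ)⌋₊ + 3 : ℕ) : ℝ) ^ Fintype.card ι := by
        apply mul_le_mul_of_nonneg_right _ (by positivity)
        exact mul_le_mul_of_nonneg_left h5 (by positivity)
    _ = _ := by
        push_cast
        ring

/-- **Lattice point counting with error term, standard lattice, arbitrary translation.** -/
theorem card_sub_volume_le_of_lipschitz (D : Set (ι → ℝ)) (hD : Bornology.IsBounded D) (k : ℕ)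
    (φ : Fin k → (Fin m → ℝ) → (ι → ℝ)) (K : NNReal)
    (hφ : ∀ j, LipschitzOnWith K (φ j) (Set.Icc 0 1))
    (hfr : frontier D ⊆ ⋃ j, φ j '' Set.Icc 0 1) :
    ∃ C : ℝ, 0 ≤ C ∧ ∀ (v : ι → ℝ) (t : ℝ), 1 ≤ t →
      |(Nat.card (ptSet v (t • D)) : ℝ) - (volume D).toReal * t ^ Fintype.card ι| ≤
        C * t ^ m := by
  refine ⟨(k * 2 ^ m * (2 * ⌊(K : ℝ)⌋₊ + 3) ^ Fintype.card ι : ℕ), by positivity,
    fun v t ht => ?_⟩
  have ht0 : (0 : ℝ) < t := by linarith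
  have hb : Bornology.IsBounded (t • D) := hD.smul₀ t
  have h1 := abs_card_sub_volume_le v (t • D) hb
  have h2 := card_outSet_frontier_le D k φ K hφ hfr v ht
  have h3 : (volume (t • D)).toReal = (volume D).toReal * t ^ Fintype.card ι := by
    rw [Measure.addHaar_smul, ENNReal.toReal_mul, Module.finrank_fintype_fun_eq_card,
      abs_of_pos (pow_pos ht0 _), ENNReal.toReal_ofReal (pow_pos ht0 _).le, mul_comm]
  rw [h3] at h1
  exact h1.trans h2

end Fermat.Agent.S14x.Cnt.H14
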