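import Mathlib

/-!
# S14 / CNT (helper14): counting the points of a translated standard lattice, with error term

`tile v ν` is the half-open unit cube of `ι → ℝ` with lower corner `v + ν`, `ν : ι → ℤ`.
For a bounded set `S`, the number of points of `v + ℤ^ι` in `S` differs from the volume of `S`
by at most the number of tiles meeting the frontier of `S`.
-/

set_option autoImplicit false
set_option linter.unusedSectionVars false

open MeasureTheory Set

namespace Fermat.Agent.S14x.Cnt.H14

variable {ι : Type*} [Fintype ι]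

/-- The half-open unit cube with lower corner `v + ν`. -/
def tile (v : ι → ℝ) (ν : ι → ℤ) : Set (ι → ℝ) :=
  Set.pi Set.univ (fun i => Set.Ico (v i + ν i) (v i + ν i + 1))

/-- The index of the tile containing `x`. -/
noncomputable def tidx (v x : ι → ℝ) : ι → ℤ := fun i => ⌊x i - v i⌋

lemma mem_tile_iff {v x : ι → ℝ} {ν : ι → ℤ} : x ∈ tile v ν ↔ tidx v x = ν := by
  simp only [tile, Set.mem_pi, Set.mem_univ, true_implies, Set.mem_Ico, tidx, funext_iff,
    Int.floor_eq_iff]
  constructor <;> intro h i <;> have := h i <;> constructor <;> linarith [this.1, this.2]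

lemma mem_tile_tidx (v x : ι → ℝ) : x ∈ tile v (tidx v x) := mem_tile_iff.mpr rfl

/-- The lower corner of a tile. -/
def corner (v : ι → ℝ) (ν : ι → ℤ) : ι → ℝ := fun i => v i + ν i

lemma corner_mem_tile (v : ι → ℝ) (ν : ι → ℤ) : corner v ν ∈ tile v ν := by
  simp only [tile, corner, Set.mem_pi, Set.mem_univ, true_implies, Set.mem_Ico]
  intro i
  constructor <;> linarith

lemma tidx_corner (v : ι → ℝ) (ν : ι → ℤ) : tidx v (corner v ν) = ν :=
  mem_tile_iff.mp (corner_mem_tile v ν)

lemma tile_disjoint {v : ι → ℝ} {ν ν' : ι → ℤ} (h : ν ≠ ν') :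
    Disjoint (tile v ν) (tile v ν') := by
  rw [Set.disjoint_left]
  intro x hx hx'
  exact h ((mem_tile_iff.mp hx).symm.trans (mem_tile_iff.mp hx'))

lemma measurableSet_tile (v : ι → ℝ) (ν : ι → ℤ) : MeasurableSet (tile v ν) :=
  MeasurableSet.univ_pi fun _ => measurableSet_Ico

lemma volume_tile (v : ι → ℝ) (ν : ι → ℤ) : volume (tile v ν) = 1 := by
  rw [tile, Real.volume_pi_Ico]
  simp

lemma convex_tile (v : ι → ℝ) (ν : ι → ℤ) : Convex ℝ (tile v ν) :=
  convex_pi fun _ _ => convex_Ico _ _

lemma isPreconnected_tile (v : ι → ℝ) (ν : ι → ℤ) : IsPreconnected (tile v ν) :=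
  (convex_tile v ν).isPreconnected

/-- A preconnected set meeting `t` and its complement meets the frontier of `t`. -/
lemma inter_frontier_nonempty_of_isPreconnected {X : Type*} [TopologicalSpace X] {s t : Set X}
    (hs : IsPreconnected s) (h1 : (s ∩ t).Nonempty) (h2 : (s ∩ tᶜ).Nonempty) :
    (s ∩ frontier t).Nonempty := by
  by_contra hcon
  rw [Set.not_nonempty_iff_eq_empty] at hcon
  have hcover : s ⊆ interior t ∪ interior tᶜ := by
    intro x hx
    by_contra hx'
    have : x ∈ frontier t := by
      rw [frontier, Set.mem_sdiff]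
      rw [Set.mem_union, not_or] at hx'
      refine ⟨?_, hx'.1⟩
      by_contra hcl
      apply hx'.2
      rw [interior_compl]
      exact hcl
    have : x ∈ s ∩ frontier t := ⟨hx, this⟩
    rw [hcon] at this
    exact this
  obtain ⟨x, hxs, hxt⟩ := h1
  obtain ⟨y, hys, hyt⟩ := h2
  have hx : x ∈ interior t := by
    rcases hcover hxs with h | h
    · exact h
    · exact absurd hxt (interior_subset h)
  have hy : y ∈ interior tᶜ := by
    rcases hcover hys with h | h
    · exact absurd (interior_subset h) hyt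
    · exact h
  obtain ⟨z, -, hz1, hz2⟩ := hs _ _ isOpen_interior isOpen_interior hcover ⟨x, hxs, hx⟩
    ⟨y, hys, hy⟩
  exact (interior_subset hz2) (interior_subset hz1)

section Count

variable (v : ι → ℝ) (S : Set (ι → ℝ))

/-- The indices of the lattice points of `v + ℤ^ι` in `S`. -/
def ptSet : Set (ι → ℤ) := {ν | corner v ν ∈ S}

/-- The indices of the tiles meeting `S`. -/
def outSet : Set (ι → ℤ) := {ν | (tile v ν ∩ S).Nonempty}

/-- The indices of the tiles contained in `S`. -/
def inSet : Set (ι → ℤ) := {ν | tile v ν ⊆ S}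

lemma inSet_subset_ptSet : inSet v S ⊆ ptSet v S := fun ν h => h (corner_mem_tile v ν)

lemma ptSet_subset_outSet : ptSet v S ⊆ outSet v S := fun ν h => ⟨_, corner_mem_tile v ν, h⟩

lemma outSet_diff_inSet_subset : outSet v S \ inSet v S ⊆ outSet v (frontier S) := by
  rintro ν ⟨h1, h2⟩
  have h3 : (tile v ν ∩ Sᶜ).Nonempty := by
    by_contra hcon
    apply h2
    intro x hx
    by_contra hxS
    exact hcon ⟨x, hx, hxS⟩
  exact inter_frontier_nonempty_of_isPreconnected (isPreconnected_tile v ν) h1 h3

lemma outSet_mono {S T : Set (ι → ℝ)} (h : S ⊆ T) : outSet v S ⊆ outSet v T :=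
  fun _ ⟨x, hx, hxS⟩ => ⟨x, hx, h hxS⟩

lemma outSet_eq_image : outSet v S = tidx v '' S := by
  ext ν
  constructor
  · rintro ⟨x, hx, hxS⟩
    exact ⟨x, hxS, mem_tile_iff.mp hx⟩
  · rintro ⟨x, hxS, rfl⟩
    exact ⟨x, mem_tile_tidx v x, hxS⟩

lemma finite_outSet (hS : Bornology.IsBounded S) : (outSet v S).Finite := by
  classical
  obtain ⟨R, hR⟩ := hS.subset_closedBall 0
  rw [outSet_eq_image]
  refine Set.Finite.subset
    (Fintype.piFinset fun i => Finset.Icc ⌊-R - v i⌋ ⌊R - v i⌋).finite_toSet ?_
  rintro ν ⟨x, hxS, rfl⟩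
  rw [Finset.mem_coe, Fintype.mem_piFinset]
  intro i
  rw [Finset.mem_Icc]
  show ⌊-R - v i⌋ ≤ ⌊x i - v i⌋ ∧ ⌊x i - v i⌋ ≤ ⌊R - v i⌋
  have hx := hR hxS
  rw [mem_closedBall_zero_iff] at hx
  have hxi : ‖x i‖ ≤ R := (norm_le_pi_norm x i).trans hx
  rw [Real.norm_eq_abs, abs_le] at hxi
  exact ⟨Int.floor_le_floor (by linarith [hxi.1]), Int.floor_le_floor (by linarith [hxi.2])⟩

lemma volume_biUnion_tile (s : Finset (ι → ℤ)) :
    volume (⋃ ν ∈ s, tile v ν) = s.card := by
  rw [measure_biUnion_finset (fun ν _ ν' _ h => tile_disjoint h)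
    (fun ν _ => measurableSet_tile v ν)]
  simp [volume_tile]

/-- **Counting lemma.** For a bounded set `S`, the number of points of `v + ℤ^ι` in `S` differs
from the volume of `S` by at most the number of tiles meeting the frontier of `S`. -/
theorem abs_card_sub_volume_le (hS : Bornology.IsBounded S) :
    |(Nat.card (ptSet v S) : ℝ) - (volume S).toReal| ≤ Nat.card (outSet v (frontier S)) := by
  classical
  have hOfin := finite_outSet v S hS
  have hIfin : (inSet v S).Finite :=
    hOfin.subset ((inSet_subset_ptSet v S).trans (ptSet_subset_outSet v S))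
  have hAfin : (ptSet v S).Finite := hOfin.subset (ptSet_subset_outSet v S)
  have hBfin : (outSet v (frontier S)).Finite :=
    finite_outSet v _ (hS.closure.subset frontier_subset_closure)
  have hvol : volume S ≠ ⊤ := hS.measure_lt_top.ne
  -- cardinalities
  have hIA : Nat.card (inSet v S) ≤ Nat.card (ptSet v S) :=
    Nat.card_mono hAfin (inSet_subset_ptSet v S)
  have hAO : Nat.card (ptSet v S) ≤ Nat.card (outSet v S) :=
    Nat.card_mono hOfin (ptSet_subset_outSet v S)
  have hIO : inSet v S ⊆ outSet v S :=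
    (inSet_subset_ptSet v S).trans (ptSet_subset_outSet v S)
  have hdiff : Nat.card (outSet v S) ≤ Nat.card (inSet v S) + Nat.card (outSet v (frontier S)) := by
    have h1 : outSet v S ⊆ inSet v S ∪ outSet v (frontier S) := by
      intro ν hν
      by_cases h : ν ∈ inSet v S
      · exact Or.inl h
      · exact Or.inr (outSet_diff_inSet_subset v S ⟨hν, h⟩)
    calc Nat.card (outSet v S) ≤ Nat.card (inSet v S ∪ outSet v (frontier S) : Set (ι → ℤ)) :=
          Nat.card_mono (hIfin.union hBfin) h1
      _ ≤ Nat.card (inSet v S) + Nat.card (outSet v (frontier S)) := by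
          rw [Nat.card_coe_set_eq, Nat.card_coe_set_eq, Nat.card_coe_set_eq]
          exact Set.ncard_union_le _ _
  -- volumes
  have hvI : (Nat.card (inSet v S) : ℝ) ≤ (volume S).toReal := by
    have h1 : (⋃ ν ∈ hIfin.toFinset, tile v ν) ⊆ S := by
      intro x hx
      simp only [Set.mem_iUnion, Set.Finite.mem_toFinset] at hx
      obtain ⟨ν, hν, hxν⟩ := hx
      exact hν hxν
    have h2 := measure_mono (μ := volume) h1
    rw [volume_biUnion_tile] at h2
    have h3 : hIfin.toFinset.card = Nat.card (inSet v S) := by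
      rw [Nat.card_coe_set_eq, Set.ncard_eq_toFinset_card _ hIfin]
    rw [h3] at h2
    have := ENNReal.toReal_mono hvol h2
    simpa using this
  have hvO : (volume S).toReal ≤ (Nat.card (outSet v S) : ℝ) := by
    have h1 : S ⊆ (⋃ ν ∈ hOfin.toFinset, tile v ν) := by
      intro x hx
      simp only [Set.mem_iUnion, Set.Finite.mem_toFinset]
      exact ⟨tidx v x, ⟨x, mem_tile_tidx v x, hx⟩, mem_tile_tidx v x⟩
    have h2 := measure_mono (μ := volume) h1
    rw [volume_biUnion_tile] at h2
    have h3 : hOfin.toFinset.card = Nat.card (outSet v S) := by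
      rw [Nat.card_coe_set_eq, Set.ncard_eq_toFinset_card _ hOfin]
    rw [h3] at h2
    have := ENNReal.toReal_mono (by simp) h2
    simpa using this
  have h1 : (Nat.card (inSet v S) : ℝ) ≤ Nat.card (ptSet v S) := by exact_mod_cast hIA
  have h2 : (Nat.card (ptSet v S) : ℝ) ≤ Nat.card (outSet v S) := by exact_mod_cast hAO
  have h3 : (Nat.card (outSet v S) : ℝ) ≤
      Nat.card (inSet v S) + Nat.card (outSet v (frontier S)) := by exact_mod_cast hdiff
  rw [abs_le]
  constructor <;> linarith

end Count

end Fermat.Agent.S14x.Cnt.H14
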