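import Fermat.Agent.S14x.Cnt.H13_Bridge

/-!
# S14 / CNT-4 : ideals of a ray class, with error term (helper23)

`stRayCount K : StRayCount K`, from the lattice bridge `H13.bridge`.

Route: `D X` = integers `α ∈ b` in the fundamental cone, of norm `≤ X`, whose class modulo `m` is
the class of a unit.  `D (x N b) ≃ {I in the ray class, N I ≤ x} × torsion K`, and `D X` is the
disjoint union over the unit classes `c` of the sets counted by the bridge for `J = b m`.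
-/

set_option autoImplicit false
set_option linter.unusedSectionVars false

namespace Fermat.Agent.S14x.Cnt.H23R

open NumberField NumberField.mixedEmbedding NumberField.mixedEmbedding.fundamentalCone
  NumberField.Units Module
open Fermat.Agent.S14x.Cnt
open scoped Classical nonZeroDivisors

noncomputable section

variable (K : Type) [Field K] [NumberField K]

/-- `α` lies in the fundamental cone -/
def InCone (α : 𝓞 K) : Prop := mixedEmbedding K (α : K) ∈ fundamentalCone K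

/-- the norm of `α` as a real number -/
def nrm (α : 𝓞 K) : ℝ := mixedEmbedding.norm (mixedEmbedding K (α : K))

variable {K}

lemma nrm_eq_absNorm (α : 𝓞 K) : nrm K α = (Ideal.absNorm (Ideal.span {α}) : ℝ) := by
  rw [nrm, Ideal.absNorm_span_singleton, Nat.cast_natAbs, ← Rat.cast_intCast, Int.cast_abs,
    Algebra.coe_norm_int, ← mixedEmbedding.norm_eq_norm]

lemma ne_zero_of_inCone {α : 𝓞 K} (h : InCone K α) : α ≠ 0 := by
  rintro rfl
  have := h.2
  simp at this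

lemma nrm_ne_zero {α : 𝓞 K} (h : α ≠ 0) : mixedEmbedding.norm (mixedEmbedding K (α : K)) ≠ 0 := by
  rw [mixedEmbedding.norm_eq_norm]
  have : Algebra.norm ℚ (α : K) ≠ 0 := by
    rw [Ne, Algebra.norm_eq_zero_iff]
    exact_mod_cast h
  exact_mod_cast abs_ne_zero.2 this

lemma unit_smul_embedding (u : (𝓞 K)ˣ) (α : 𝓞 K) :
    u • mixedEmbedding K (α : K) = mixedEmbedding K (((u : 𝓞 K) * α : 𝓞 K) : K) := by
  rw [unitSMul_smul, ← map_mul]
  rfl

/-- the classes of the units modulo `m` -/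
def Ubar (m : Ideal (𝓞 K)) : Set (𝓞 K ⧸ m) :=
  Set.range (fun u : (𝓞 K)ˣ => Ideal.Quotient.mk m (u : 𝓞 K))

lemma mk_unit_mul_mem_Ubar {m : Ideal (𝓞 K)} (u : (𝓞 K)ˣ) {α : 𝓞 K}
    (h : Ideal.Quotient.mk m α ∈ Ubar m) : Ideal.Quotient.mk m ((u : 𝓞 K) * α) ∈ Ubar m := by
  obtain ⟨v, hv⟩ := h
  refine ⟨u * v, ?_⟩
  simp only [Units.val_mul, map_mul]
  rw [← hv]

/-- the set `D X` -/
def DSet (m b : Ideal (𝓞 K)) (X : ℝ) : Type :=
  {α : 𝓞 K // α ∈ b ∧ Ideal.Quotient.mk m α ∈ Ubar m ∧ InCone K α ∧ nrm K α ≤ X}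

/-- the set `D_c X` -/
def DcSet (m b : Ideal (𝓞 K)) (c : 𝓞 K ⧸ m) (X : ℝ) : Type :=
  {α : 𝓞 K // α ∈ b ∧ Ideal.Quotient.mk m α = c ∧ InCone K α ∧ nrm K α ≤ X}

/-- the ideals to be counted -/
def TSet (m b : Ideal (𝓞 K)) (x : ℝ) : Type :=
  {I : Ideal (𝓞 K) // InRayClassInv m b I ∧ (Ideal.absNorm I : ℝ) ≤ x}

section bij

variable {m b : Ideal (𝓞 K)}

lemma exists_gen {x : ℝ} (t : TSet m b x) :
    ∃ α : 𝓞 K, t.1 * b = Ideal.span {α} ∧ InCone K α ∧ Ideal.Quotient.mk m α ∈ Ubar m := by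
  obtain ⟨α₁, hα₁0, hα₁m, hI⟩ := t.2.1
  obtain ⟨u, hu⟩ := exists_unit_smul_mem (nrm_ne_zero hα₁0)
  refine ⟨(u : 𝓞 K) * α₁, ?_, ?_, ?_⟩
  · rw [hI, Ideal.span_singleton_mul_left_unit u.isUnit]
  · rw [InCone, ← unit_smul_embedding]
    exact hu
  · refine mk_unit_mul_mem_Ubar u ⟨1, ?_⟩
    simp only [Units.val_one, map_one]
    exact ((Ideal.Quotient.mk_eq_mk_iff_sub_mem _ _).2 hα₁m).symm

/-- a chosen generator in the cone -/
def gen {x : ℝ} (t : TSet m b x) : 𝓞 K := Classical.choose (exists_gen t)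

lemma gen_span {x : ℝ} (t : TSet m b x) : t.1 * b = Ideal.span {gen t} :=
  (Classical.choose_spec (exists_gen t)).1

lemma gen_inCone {x : ℝ} (t : TSet m b x) : InCone K (gen t) :=
  (Classical.choose_spec (exists_gen t)).2.1

lemma gen_mk {x : ℝ} (t : TSet m b x) : Ideal.Quotient.mk m (gen t) ∈ Ubar m :=
  (Classical.choose_spec (exists_gen t)).2.2

lemma gen_mem {x : ℝ} (t : TSet m b x) : gen t ∈ b := by
  have h : gen t ∈ t.1 * b := by rw [gen_span]; exact Ideal.mem_span_singleton_self _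
  exact (Ideal.mul_le_right (I := t.1) (J := b)) h

lemma absNorm_pos_of_ne_bot {b : Ideal (𝓞 K)} (hb : b ≠ ⊥) : (0 : ℝ) < Ideal.absNorm b := by
  have : Ideal.absNorm b ≠ 0 := by rwa [Ne, Ideal.absNorm_eq_zero_iff]
  exact_mod_cast Nat.pos_of_ne_zero this

/-- the map `(I, ζ) ↦ ζ * gen I` -/
def gmap (x : ℝ) (p : TSet m b x × torsion K) : DSet m b (x * Ideal.absNorm b) :=
  ⟨((p.2 : (𝓞 K)ˣ) : 𝓞 K) * gen p.1, by
    refine ⟨b.mul_mem_left _ (gen_mem p.1), mk_unit_mul_mem_Ubar _ (gen_mk p.1), ?_, ?_⟩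
    · rw [InCone, ← unit_smul_embedding]
      exact torsion_smul_mem_of_mem (gen_inCone p.1) p.2.2
    · rw [nrm_eq_absNorm, Ideal.span_singleton_mul_left_unit (p.2 : (𝓞 K)ˣ).isUnit,
        ← gen_span, map_mul, Nat.cast_mul]
      exact mul_le_mul_of_nonneg_right p.1.2.2 (Nat.cast_nonneg _)⟩

lemma gmap_injective (hb : b ≠ ⊥) (x : ℝ) : Function.Injective (gmap (m := m) (b := b) x) := by
  rintro ⟨t, ζ⟩ ⟨t', ζ'⟩ h
  have h1 : ((ζ : (𝓞 K)ˣ) : 𝓞 K) * gen t = ((ζ' : (𝓞 K)ˣ) : 𝓞 K) * gen t' :=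
    congrArg Subtype.val h
  have h2 : Ideal.span {gen t} = Ideal.span {gen t'} := by
    rw [← Ideal.span_singleton_mul_left_unit (ζ : (𝓞 K)ˣ).isUnit, h1,
      Ideal.span_singleton_mul_left_unit (ζ' : (𝓞 K)ˣ).isUnit]
  have h3 : t.1 * b = t'.1 * b := by rw [gen_span, gen_span, h2]
  have h4 : t = t' := Subtype.ext (mul_right_cancel₀ hb h3)
  subst h4
  have h5 : ((ζ : (𝓞 K)ˣ) : 𝓞 K) = ((ζ' : (𝓞 K)ˣ) : 𝓞 K) :=
    mul_right_cancel₀ (ne_zero_of_inCone (gen_inCone t)) h1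
  have h6 : ζ = ζ' := Subtype.ext (Units.ext h5)
  rw [h6]

lemma gmap_surjective (hb : b ≠ ⊥) (x : ℝ) :
    Function.Surjective (gmap (m := m) (b := b) x) := by
  rintro ⟨α, hαb, hαU, hαC, hαN⟩
  have hα0 : α ≠ 0 := ne_zero_of_inCone hαC
  obtain ⟨I, hI⟩ := Ideal.dvd_iff_le.2 ((Ideal.span_singleton_le_iff_mem b).2 hαb)
  have hIb : I * b = Ideal.span {α} := by rw [hI, mul_comm]
  have hray : InRayClassInv m b I := by
    obtain ⟨v, hv⟩ := hαU
    refine ⟨((v⁻¹ : (𝓞 K)ˣ) : 𝓞 K) * α, mul_ne_zero (Units.ne_zero _) hα0, ?_, ?_⟩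
    · rw [← Ideal.Quotient.mk_eq_mk_iff_sub_mem, map_mul, ← hv, ← map_mul, map_one]
      simp
    · rw [hIb, Ideal.span_singleton_mul_left_unit (v⁻¹ : (𝓞 K)ˣ).isUnit]
  have hnorm : (Ideal.absNorm I : ℝ) ≤ x := by
    have h1 : (Ideal.absNorm I : ℝ) * Ideal.absNorm b ≤ x * Ideal.absNorm b := by
      rw [← Nat.cast_mul, ← map_mul, hIb, ← nrm_eq_absNorm]
      exact hαN
    exact le_of_mul_le_mul_right h1 (absNorm_pos_of_ne_bot hb)
  let t : TSet m b x := ⟨I, hray, hnorm⟩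
  have hspan : Ideal.span {gen t} = Ideal.span {α} := by rw [← gen_span t]; exact hIb
  obtain ⟨w, hw⟩ := Ideal.span_singleton_eq_span_singleton.1 hspan
  have hwα : ((w : (𝓞 K)ˣ) : 𝓞 K) * gen t = α := by rw [mul_comm]; exact hw
  have hwtor : w ∈ torsion K := by
    rw [← unit_smul_mem_iff_mem_torsion (gen_inCone t) w, unit_smul_embedding, hwα]
    exact hαC
  exact ⟨(t, ⟨w, hwtor⟩), Subtype.ext hwα⟩

lemma card_DSet (hb : b ≠ ⊥) (x : ℝ) :
    Nat.card (DSet m b (x * Ideal.absNorm b)) = Nat.card (TSet m b x) * Nat.card (torsion K) := by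
  rw [← Nat.card_prod]
  exact (Nat.card_congr (Equiv.ofBijective _ ⟨gmap_injective hb x, gmap_surjective hb x⟩)).symm

end bij

section split

variable {m b : Ideal (𝓞 K)}

/-- Step A: the elements of `b` in a unit class modulo `m` form a coset of `b * m`. -/
lemma exists_coset (hcop : b ⊔ m = ⊤) (c : Ubar m) :
    ∃ β : 𝓞 K, ∀ α : 𝓞 K, (α ∈ b ∧ Ideal.Quotient.mk m α = c.1) ↔ α - β ∈ b * m := by
  obtain ⟨u, hu⟩ := c.2
  have h1 : (1 : 𝓞 K) ∈ b ⊔ m := by rw [hcop]; exact Submodule.mem_top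
  obtain ⟨g, hg, μ, hμ, hsum⟩ := Submodule.mem_sup.1 h1
  have hg1 : Ideal.Quotient.mk m g = 1 := by
    rw [← map_one (Ideal.Quotient.mk m), Ideal.Quotient.mk_eq_mk_iff_sub_mem]
    have : g - 1 = -μ := by rw [← hsum]; ring
    rw [this]
    exact m.neg_mem hμ
  have hβb : (u : 𝓞 K) * g ∈ b := b.mul_mem_left _ hg
  have hβc : Ideal.Quotient.mk m ((u : 𝓞 K) * g) = c.1 := by
    rw [map_mul, hg1, mul_one]
    exact hu
  refine ⟨(u : 𝓞 K) * g, fun α => ?_⟩
  rw [Ideal.mul_eq_inf_of_coprime hcop, Submodule.mem_inf]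
  constructor
  · rintro ⟨hαb, hαc⟩
    refine ⟨b.sub_mem hαb hβb, ?_⟩
    rw [← Ideal.Quotient.mk_eq_mk_iff_sub_mem, hαc, hβc]
  · rintro ⟨h1, h2⟩
    refine ⟨?_, ?_⟩
    · have : α = (α - (u : 𝓞 K) * g) + (u : 𝓞 K) * g := by ring
      rw [this]
      exact b.add_mem h1 hβb
    · rw [← hβc]
      exact (Ideal.Quotient.mk_eq_mk_iff_sub_mem _ _).2 h2

/-- Step B: `D X` is the disjoint union of the `D_c X`. -/
def splitEquiv (X : ℝ) : DSet m b X ≃ Σ c : Ubar m, DcSet m b c.1 X where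
  toFun d := ⟨⟨Ideal.Quotient.mk m d.1, d.2.2.1⟩, ⟨d.1, d.2.1, rfl, d.2.2.2⟩⟩
  invFun p := ⟨p.2.1, p.2.2.1, by rw [p.2.2.2.1]; exact p.1.2, p.2.2.2.2⟩
  left_inv d := rfl
  right_inv := by
    intro p
    obtain ⟨⟨c, hc⟩, ⟨α, h1, h2, h3⟩⟩ := p
    change Ideal.Quotient.mk m α = c at h2
    subst h2
    rfl

lemma finite_TSet (x : ℝ) : Finite (TSet m b x) := by
  have h : {I : Ideal (𝓞 K) | Ideal.absNorm I ≤ ⌊x⌋₊}.Finite :=
    Ideal.finite_setOfPred_absNorm_le ⌊x⌋₊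
  by_cases hx : 0 ≤ x
  · have := h.to_subtype
    refine Finite.of_injective (β := {I : Ideal (𝓞 K) | Ideal.absNorm I ≤ ⌊x⌋₊})
      (fun t : TSet m b x => ⟨t.1, (Nat.le_floor_iff hx).2 t.2.2⟩) ?_
    intro t t' htt
    simp only [Subtype.mk.injEq] at htt
    exact Subtype.ext htt
  · refine @Finite.of_subsingleton _ ⟨fun t _ => ?_⟩
    exact absurd (le_trans (Nat.cast_nonneg _) t.2.2) hx

lemma finite_DSet (hb : b ≠ ⊥) (x : ℝ) : Finite (DSet m b (x * Ideal.absNorm b)) := by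
  have := finite_TSet (m := m) (b := b) x
  exact Finite.of_equiv _ (Equiv.ofBijective _ ⟨gmap_injective hb x, gmap_surjective hb x⟩)

lemma finite_DcSet (hb : b ≠ ⊥) (x : ℝ) (c : Ubar m) :
    Finite (DcSet m b c.1 (x * Ideal.absNorm b)) := by
  have hfin := finite_DSet (m := m) hb x
  let f : DcSet m b c.1 (x * Ideal.absNorm b) → DSet m b (x * Ideal.absNorm b) :=
    fun d => ⟨d.1, d.2.1, by rw [d.2.2.1]; exact c.2, d.2.2.2⟩
  refine @Finite.of_injective _ (DSet m b (x * Ideal.absNorm b)) hfin f ?_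
  intro d d' h
  have h2 : (f d).1 = (f d').1 := congrArg Subtype.val h
  exact Subtype.ext h2

end split

end

open Classical in
/-- [CNT-4] ideals of a ray class with error term. -/
theorem stRayCount (K : Type) [Field K] [NumberField K] : StRayCount K := by
  intro m hm
  have : Finite (𝓞 K ⧸ m) := Ideal.finiteQuotientOfFreeOfNeBot m hm
  haveI : Fintype (Ubar m) := Fintype.ofFinite _
  have hw : 0 < Nat.card (torsion K) := Nat.card_pos
  have he : 0 < Fintype.card (Ubar m) :=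
    Fintype.card_pos_iff.2 ⟨⟨Ideal.Quotient.mk m ((1 : (𝓞 K)ˣ) : 𝓞 K), ⟨1, rfl⟩⟩⟩
  have hNm : (0 : ℝ) < Ideal.absNorm m := absNorm_pos_of_ne_bot hm
  have hκ₀ := H13.kappa0_pos K
  have hwR : (0 : ℝ) < Nat.card (torsion K) := by exact_mod_cast hw
  have heR : (0 : ℝ) < Fintype.card (Ubar m) := by exact_mod_cast he
  refine ⟨Fintype.card (Ubar m) * H13.kappa0 K / (Nat.card (torsion K) * Ideal.absNorm m),
    by positivity, fun b hb hcop => ?_⟩
  have hNb : (0 : ℝ) < Ideal.absNorm b := absNorm_pos_of_ne_bot hb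
  have hNb1 : (1 : ℝ) ≤ Ideal.absNorm b := by
    have : 0 < Ideal.absNorm b := by exact_mod_cast hNb
    exact_mod_cast this
  have hbm : b * m ≠ ⊥ := mul_ne_zero hb hm
  choose β hβ using exists_coset (m := m) (b := b) hcop
  choose C hC using fun c : Ubar m => H13.bridge K (b * m) hbm (β c)
  set ε : ℝ := 1 - 1 / (finrank ℚ K : ℝ) with hε
  refine ⟨(∑ c, C c) * (Ideal.absNorm b : ℝ) ^ ε / Nat.card (torsion K), fun x hx => ?_⟩
  have hx0 : (0 : ℝ) ≤ x := le_trans zero_le_one hx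
  set X : ℝ := x * Ideal.absNorm b with hX
  have hX1 : 1 ≤ X := by
    calc (1 : ℝ) = 1 * 1 := by ring
      _ ≤ x * Ideal.absNorm b := mul_le_mul hx hNb1 zero_le_one hx0
  -- the counting identity
  have hfin : ∀ c : Ubar m, Finite (DcSet m b c.1 X) := fun c => finite_DcSet hb x c
  have h1 : (Nat.card (TSet m b x) : ℝ) * Nat.card (torsion K) =
      ∑ c : Ubar m, (Nat.card (DcSet m b c.1 X) : ℝ) := by
    rw [← Nat.cast_mul, ← card_DSet hb x, Nat.card_congr (splitEquiv (m := m) (b := b) X),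
      Nat.card_sigma, Nat.cast_sum]
  have h2 : ∀ c : Ubar m, Nat.card (DcSet m b c.1 X) =
      Nat.card {a : 𝓞 K // a - β c ∈ b * m ∧ mixedEmbedding K (a : K) ∈ fundamentalCone K ∧
        mixedEmbedding.norm (mixedEmbedding K (a : K)) ≤ X} := by
    intro c
    refine Nat.card_congr (Equiv.subtypeEquivRight fun α => ?_)
    rw [← hβ c α]
    constructor
    · rintro ⟨h1, h2, h3, h4⟩
      exact ⟨⟨h1, h2⟩, h3, h4⟩
    · rintro ⟨⟨h1, h2⟩, h3, h4⟩
      exact ⟨h1, h2, h3, h4⟩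
  -- each term
  have h3 : ∀ c : Ubar m, |(Nat.card (DcSet m b c.1 X) : ℝ) - H13.kappa0 K / Ideal.absNorm m * x|
      ≤ C c * X ^ ε := by
    intro c
    have := hC c X hX1
    rw [← h2 c] at this
    have e1 : H13.kappa0 K / (Ideal.absNorm (b * m) : ℝ) * X =
        H13.kappa0 K / Ideal.absNorm m * x := by
      rw [map_mul, Nat.cast_mul, hX]
      field_simp
    rwa [e1] at this
  -- sum
  have h4 : |(Nat.card (TSet m b x) : ℝ) * Nat.card (torsion K) -
      Fintype.card (Ubar m) * (H13.kappa0 K / Ideal.absNorm m * x)| ≤ (∑ c, C c) * X ^ ε := by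
    rw [h1, Finset.sum_mul]
    have : (Fintype.card (Ubar m) : ℝ) * (H13.kappa0 K / Ideal.absNorm m * x) =
        ∑ _c : Ubar m, (H13.kappa0 K / Ideal.absNorm m * x) := by
      rw [Finset.sum_const, Finset.card_univ, nsmul_eq_mul]
    rw [this, ← Finset.sum_sub_distrib]
    exact (Finset.abs_sum_le_sum_abs _ _).trans (Finset.sum_le_sum fun c _ => h3 c)
  have h5 : X ^ ε = x ^ ε * (Ideal.absNorm b : ℝ) ^ ε := Real.mul_rpow hx0 hNb.le
  -- divide by `w`
  have h6 : (Nat.card {I : Ideal (𝓞 K) // InRayClassInv m b I ∧ (Ideal.absNorm I : ℝ) ≤ x} : ℝ)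
      - Fintype.card (Ubar m) * H13.kappa0 K / (Nat.card (torsion K) * Ideal.absNorm m) * x =
      ((Nat.card (TSet m b x) : ℝ) * Nat.card (torsion K) -
        Fintype.card (Ubar m) * (H13.kappa0 K / Ideal.absNorm m * x)) /
          Nat.card (torsion K) := by
    change (Nat.card (TSet m b x) : ℝ) - _ = _
    field_simp
  rw [h6, abs_div, abs_of_pos hwR, div_le_iff₀ hwR]
  calc _ ≤ (∑ c, C c) * X ^ ε := h4
    _ = (∑ c, C c) * (Ideal.absNorm b : ℝ) ^ ε / Nat.card (torsion K) * x ^ ε *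
          Nat.card (torsion K) := by
        rw [h5]; field_simp

end Fermat.Agent.S14x.Cnt.H23R
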